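/-
PROJECT R (S43), brick N3, SELMER HALF (helper21, claim #6062): THE RELATIVE WILES–GREENBERG COUNT,
with the STRICT (= locally trivial) condition at a finite set `T` of "stuck" primes.

Vocabulary = main's `S56` (never edited): `Sel`, `LocCond.ofLocal`, `LcFam rbar p Smin Pp`
(`Pp` at `p`, unipotent on inertia at `q ∈ Smin`, no condition elsewhere), `LocPairing`, `fixCard`.

* `LcFamT rbar p Smin T Pp` : the family `LcFam rbar p Smin Pp` with `B1 (Dq l)` at the primes `l ∈ T`;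
* `exists_le_of_chain`      : the counting chain of `S56/Count/Main` with abstract numbers in place of
                              the cardinalities of the primal Selmer groups (so that a constant can be
                              carried through the chain);
* `card_sel_LcFamT_mul_le`  : THE BASE INEQUALITY WITH THE CONSTANT, `S₀ = Smin ∪ T`:
      `card Sel(S₀, L^T) * ∏ l ∈ T, card H⁰(D_l, ad⁰) ≤ card Sel(S₀, (L^T)^⊥)`
    (turned count `S56/Base/Count.card_turned` with local bound `1` at `T`, against the Euler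
    characteristic input `hEC` at `S₀`);
* `exists_relCount`         : THE RELATIVE COUNT:
      `∃ r, ∀ n, ∃ Q, #Q = r ∧ (Q Taylor–Wiles of depth n, outside S) ∧
          card Sel(S₀ ∪ Q, L^T) * ∏ l ∈ T, card H⁰(D_l, ad⁰) ≤ (card k) ^ r`.

Consumer (second half of N3): the relative tangent space of the `T`-framed deformation ring over
`R^loc_T` has dimension `dim Sel(S₀ ∪ Q, L^T) + ∑ l ∈ T, (dim H⁰(D_l, ad⁰) + 1) - 1 ≤ r + #T - 1`.

The closed form (all inputs discharged from main) is in `S43/Num/RelCountMain.lean`.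
-/
import Fermat.Agent.S56.Count.Concrete
import Fermat.Agent.S56.Base.Main

set_option autoImplicit false
set_option linter.style.haveILetI false

namespace Fermat.Agent.S43.Num.RelCount

open CategoryTheory groupCohomology Polynomial Matrix Module
open Fermat.Agent.CFT.LC Fermat.Agent.CFT.Bridge Fermat.Agent.CFT.LocalBridge
open Fermat.Agent.S56.Coh Fermat.Agent.S56.Coh.CocDefs
open Fermat.Agent.S56.Count.Main Fermat.Agent.S56.Count.Select Fermat.Agent.S56.Count.Concrete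
open Fermat.Agent.S56.TW.Step Fermat.Agent.S56.TW.TWPrime Fermat.Agent.S56.TW.DQS
open Fermat.Agent.S56.Base.Count Fermat.Agent.S56.Base.Main

/-! ### The chain with abstract primal numbers -/

section Chain

variable {k : Type} [Field k] {M' : Rep.{0} k GQ}

/-- primes are prime (local instance for the index type `Nat.Primes`) -/
local instance factPrimesR (q : Nat.Primes) : Fact (q : ℕ).Prime := ⟨q.2⟩

/-- **The counting chain**, with abstract numbers `c0` (for `card Sel(S₀, L)`) and `N Q` (for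
`card Sel(S₀ ∪ Q, L_Q)`), so that constants can be carried.  `r = dim_k Sel(S₀, L')`. -/
theorem exists_le_of_chain
    (S0 : Finset ℕ) (Lc' : LocCond M') [Finite (Sel S0 Lc')]
    (adm : ℕ → ℕ → Prop) (hadm : ∀ n q, adm n q → q.Prime)
    (cDQ : Finset ℕ → ℕ) (c0 : ℕ) (N : Finset ℕ → ℕ)
    (hbase : c0 ≤ Nat.card (Sel S0 Lc'))
    (hstep : ∀ (n : ℕ) (Q : Finset ℕ), Disjoint Q S0 → (∀ q ∈ Q, adm n q) →
      N Q * Nat.card (Sel S0 Lc') ≤ c0 * Nat.card k ^ Q.card * cDQ Q)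
    (hDQ : ∀ Q : Finset ℕ, (∀ q ∈ Q, q.Prime) →
      (∀ y : Sel S0 Lc', (∀ (q : ℕ) [Fact q.Prime], q ∈ Q → locMap q S0 Lc' y = 0) → y = 0) →
      cDQ Q = 1)
    (hdet : ∀ (n : ℕ) (T : Finset ℕ) (y : Sel S0 Lc'), y ≠ 0 →
      ∃ (q : ℕ) (_ : Fact q.Prime), q ∉ T ∧ adm n q ∧ locMap q S0 Lc' y ≠ 0)
    (T₀ : Finset ℕ) :
    ∃ r : ℕ, ∀ n : ℕ, ∃ Q : Finset ℕ, Q.card = r ∧ (∀ q ∈ Q, adm n q) ∧ Disjoint Q T₀ ∧
      Disjoint Q S0 ∧ N Q ≤ Nat.card k ^ r := by
  classical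
  have : Module.Finite k (Sel S0 Lc') := Module.Finite.of_finite
  refine ⟨finrank k (Sel S0 Lc'), fun n => ?_⟩
  let lam : ∀ q : Nat.Primes, Sel S0 Lc' →ₗ[k] H1loc q.1 M' := fun q => locMap q.1 S0 Lc'
  have hsel : ∀ (T : Finset Nat.Primes) (ψ : Sel S0 Lc'), ψ ≠ 0 →
      ∃ q : Nat.Primes, q ∉ T ∧ adm n q.1 ∧ lam q ψ ≠ 0 := by
    intro T ψ hψ
    obtain ⟨q, hq, hqT, hqa, hqψ⟩ := hdet n (T.map ⟨Subtype.val, Subtype.val_injective⟩) ψ hψ
    refine ⟨⟨q, hq.out⟩, fun h => hqT ?_, hqa, hqψ⟩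
    exact Finset.mem_map.mpr ⟨⟨q, hq.out⟩, h, rfl⟩
  let T : Finset Nat.Primes := (T₀ ∪ S0).subtype Nat.Prime
  obtain ⟨Q', hQc, hQT, hQa, hQK⟩ :=
    exists_finset_jointKer_eq_bot (k := k) (V := Sel S0 Lc')
      (W := fun q : Nat.Primes => H1loc q.1 M') lam (fun q : Nat.Primes => adm n q.1) hsel T
  let Q : Finset ℕ := Q'.map ⟨Subtype.val, Subtype.val_injective⟩
  have hQmem : ∀ q, q ∈ Q ↔ ∃ h : q.Prime, (⟨q, h⟩ : Nat.Primes) ∈ Q' := by
    intro q
    constructor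
    · intro h
      obtain ⟨q', hq', rfl⟩ := Finset.mem_map.mp h
      exact ⟨q'.2, hq'⟩
    · rintro ⟨h, hq'⟩
      exact Finset.mem_map.mpr ⟨⟨q, h⟩, hq', rfl⟩
  have hQcard : Q.card = finrank k (Sel S0 Lc') := (Finset.card_map _).trans hQc
  have hQadm : ∀ q ∈ Q, adm n q := by
    intro q hq
    obtain ⟨h, hq'⟩ := (hQmem q).mp hq
    exact hQa _ hq'
  have hQdisj : ∀ q ∈ Q, q ∉ T₀ ∪ S0 := by
    intro q hq hqT
    obtain ⟨h, hq'⟩ := (hQmem q).mp hq
    exact Finset.disjoint_left.mp hQT hq' (Finset.mem_subtype.mpr hqT)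
  have hQT₀ : Disjoint Q T₀ :=
    Finset.disjoint_left.mpr fun q hq hqT => hQdisj q hq (Finset.mem_union_left _ hqT)
  have hQS : Disjoint Q S0 :=
    Finset.disjoint_left.mpr fun q hq hqT => hQdisj q hq (Finset.mem_union_right _ hqT)
  refine ⟨Q, hQcard, hQadm, hQT₀, hQS, ?_⟩
  have h5 : cDQ Q = 1 := by
    refine hDQ Q (fun q hq => hadm n q (hQadm q hq)) fun y hy => ?_
    have hmem : y ∈ jointKer (k := k) (V := Sel S0 Lc')
        (W := fun q : Nat.Primes => H1loc q.1 M') lam Q' := by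
      rw [mem_jointKer]
      intro q hq
      exact hy q.1 ((hQmem q.1).mpr ⟨q.2, hq⟩)
    rw [hQK] at hmem
    exact (Submodule.mem_bot k).mp hmem
  have hD : 0 < Nat.card (Sel S0 Lc') := Nat.card_pos
  have h1 := hstep n Q hQS hQadm
  rw [hQcard] at h1
  exact card_le_pow_of_chain hD le_rfl h1 h5 hbase

end Chain

/-! ### The family `L^T` -/

section Family

variable {k : Type} [Field k] (rbar : GQ →* GL (Fin 2) k)

/-- **The local conditions with the strict condition at `T`**: `B1 (Dq l)` at `l ∈ T`, and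
`LcFam rbar p Smin Pp` elsewhere (`Pp` at `p`, unipotent on inertia at `q ∈ Smin`, no condition
at the other primes). -/
noncomputable def LcFamT (p : ℕ) (Smin T : Finset ℕ) (Pp : GaloisRepAdic (DualNumber k) → Prop) :
    LocFam (Mrep rbar) := fun q _ => by
  classical
  exact if q ∈ T then B1 (Dq q) (Mrep rbar) else LcFam rbar p Smin Pp q

variable {rbar}

theorem LcFamT_of_mem (p : ℕ) (Smin : Finset ℕ) {T : Finset ℕ}
    (Pp : GaloisRepAdic (DualNumber k) → Prop) (q : ℕ) [Fact q.Prime] (hq : q ∈ T) :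
    LcFamT rbar p Smin T Pp q = B1 (Dq q) (Mrep rbar) := by
  classical
  simp only [LcFamT, if_pos hq]

theorem LcFamT_of_not_mem (p : ℕ) (Smin : Finset ℕ) {T : Finset ℕ}
    (Pp : GaloisRepAdic (DualNumber k) → Prop) (q : ℕ) [Fact q.Prime] (hq : q ∉ T) :
    LcFamT rbar p Smin T Pp q = LcFam rbar p Smin Pp q := by
  classical
  simp only [LcFamT, if_neg hq]

theorem LcFamT_empty (p : ℕ) (Smin : Finset ℕ) (Pp : GaloisRepAdic (DualNumber k) → Prop) :
    LcFamT rbar p Smin ∅ Pp = LcFam rbar p Smin Pp := by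
  funext q hq
  exact LcFamT_of_not_mem p Smin Pp q (Finset.notMem_empty q)

theorem B1_le_LcFamT (p : ℕ) (Smin T : Finset ℕ) (Pp : GaloisRepAdic (DualNumber k) → Prop)
    (q : ℕ) [Fact q.Prime] : B1 (Dq q) (Mrep rbar) ≤ LcFamT rbar p Smin T Pp q := by
  by_cases hq : q ∈ T
  · rw [LcFamT_of_mem p Smin Pp q hq]
  · rw [LcFamT_of_not_mem p Smin Pp q hq]
    exact B1_le_LcFam p Smin Pp q

theorem LcFamT_le_LcFam (p : ℕ) (Smin T : Finset ℕ) (Pp : GaloisRepAdic (DualNumber k) → Prop)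
    (q : ℕ) [Fact q.Prime] : LcFamT rbar p Smin T Pp q ≤ LcFam rbar p Smin Pp q := by
  by_cases hq : q ∈ T
  · rw [LcFamT_of_mem p Smin Pp q hq]
    exact B1_le_LcFam p Smin Pp q
  · rw [LcFamT_of_not_mem p Smin Pp q hq]

theorem LcFamT_le_Z1 (p : ℕ) (Smin T : Finset ℕ) (Pp : GaloisRepAdic (DualNumber k) → Prop)
    (q : ℕ) [Fact q.Prime] : LcFamT rbar p Smin T Pp q ≤ Z1 (Dq q) (Mrep rbar) :=
  (LcFamT_le_LcFam p Smin T Pp q).trans (LcFam_le_Z1 p Smin Pp q)

/-- no condition at Taylor–Wiles primes: freeing `L^T` at a set `Q` disjoint from `Smin ∪ T` does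
nothing -/
theorem freeAt_LcFamT (p : ℕ) (Smin T Q : Finset ℕ) (Pp : GaloisRepAdic (DualNumber k) → Prop)
    (hp : p ∈ Smin) (hdisj : Disjoint (Smin ∪ T) Q) :
    freeAt (LcFamT rbar p Smin T Pp) Q = LcFamT rbar p Smin T Pp := by
  funext q hq
  by_cases hqQ : q ∈ Q
  · rw [freeAt_of_mem _ hqQ]
    have hqS : q ∉ Smin := fun h =>
      Finset.disjoint_left.1 hdisj (Finset.mem_union_left T h) hqQ
    have hqT : q ∉ T := fun h =>
      Finset.disjoint_left.1 hdisj (Finset.mem_union_right Smin h) hqQ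
    have hqp : q ≠ p := fun h => hqS (h ▸ hp)
    rw [LcFamT_of_not_mem p Smin Pp q hqT, LcFam_of_not_mem p Smin Pp q hqp hqS]
  · rw [freeAt_of_notMem _ hqQ]

/-- the classes of the strict condition: only the trivial class -/
theorem card_clsSub_B1 (q : ℕ) [Fact q.Prime] (A : Rep.{0} k GQ) :
    Nat.card (clsSub q (B1 (Dq q) A)) = 1 := by
  have hsub : Subsingleton (clsSub q (B1 (Dq q) A)) := by
    refine ⟨fun a b => ?_⟩
    obtain ⟨a, x, hx, rfl⟩ := a
    obtain ⟨b, y, hy, rfl⟩ := b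
    apply Subtype.ext
    change (Submodule.Quotient.mk x : H1loc q A) = Submodule.Quotient.mk y
    rw [Submodule.Quotient.eq, Submodule.mem_comap]
    exact Submodule.sub_mem _ hx hy
  exact Nat.card_unique

end Family

/-! ### The base inequality with the constant -/

section Base

variable {k : Type} [Field k] [Finite k] (p : ℕ) [Fact p.Prime] [CharP k p]

/-- **THE BASE INEQUALITY WITH THE CONSTANT** (`S₀ = Smin ∪ T`):
`card Sel(S₀, L^T) * ∏ l ∈ T, card H⁰(D_l, ad⁰) ≤ card Sel(S₀, (L^T)^⊥)`. -/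
theorem card_sel_LcFamT_mul_le (hp2 : p ≠ 2) (ρbar : ResidualGaloisRep k)
    (b : Module.Basis (Fin 2) k ρbar.V) (rbar : GQ →* GL (Fin 2) k)
    (hb : ∀ g, (rbar g : Matrix (Fin 2) (Fin 2) k) = LinearMap.toMatrix b b (ρbar.ρ g))
    (hrbar : GaloisFactorsThroughFiniteLevel (Fermat.Agent.S56.Tan.Cocycle.rbarM rbar))
    (e0 : ρbar.IsEquiv (Fermat.Agent.S53.Dictionary.resOfMat
      (Fermat.Agent.S56.Tan.Cocycle.rbarM rbar) hrbar))
    (Smin T : Finset ℕ) (hSmin : ∀ q ∈ Smin, q.Prime) (hT : ∀ q ∈ T, q.Prime) (hpS : p ∈ Smin)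
    (hST : Disjoint Smin T)
    (hmin : ∀ q : ℕ, q.Prime → q ≠ p → (q ∈ Smin ↔ ¬ ρbar.IsUnramifiedAt q))
    (Pp : GaloisRepAdic (DualNumber k) → Prop)
    (LP : LocPairing p (Mrep rbar) (MrepTw rbar))
    (hlocp : Finite (LocQ p (Mrep rbar) (LcOf rbar Pp p)) ∧
      Nat.card (LocQ p (Mrep rbar) (LcOf rbar Pp p)) ≤
        Nat.card k * Nat.card (Fix p (Mrep rbar)))
    (hfin : Finite (Sel (Smin ∪ T) (LocCond.ofLocal (fullFam (Mrep rbar)))))
    (hfin' : Finite (Sel (Smin ∪ T) (LocCond.ofLocal (fullFam (MrepTw rbar)))))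
    (hloc : ∀ (q : ℕ) [Fact q.Prime], q ∈ Smin ∪ T → Finite (H1loc q (Mrep rbar)))
    (hloc' : ∀ (q : ℕ) [Fact q.Prime], q ∈ Smin ∪ T → Finite (H1loc q (MrepTw rbar)))
    (hEC : Nat.card (Sel (Smin ∪ T) (LocCond.ofLocal (strictFam (Mrep rbar)))) *
        (Nat.card k * ∏ q ∈ Smin ∪ T, fixCard (Mrep rbar) q) ≤
      Nat.card (Sel (Smin ∪ T) (LocCond.ofLocal (fullFam (MrepTw rbar))))) :
    Nat.card (Sel (Smin ∪ T) (LocCond.ofLocal (LcFamT rbar p Smin T Pp))) *
        ∏ l ∈ T, fixCard (Mrep rbar) l ≤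
      Nat.card (Sel (Smin ∪ T) (LocCond.ofLocal (LP.perp (LcFamT rbar p Smin T Pp)))) := by
  classical
  have h2 : (2 : k) ≠ 0 := two_ne_zero_of_charP p hp2
  haveI : Finite (Mrep rbar) := inferInstanceAs (Finite ↥(sl2 k))
  haveI : Finite (MrepTw rbar) := inferInstanceAs (Finite ↥(sl2 k))
  have hunr := Fermat.Agent.S56.TW.OfResidual.rbar_unr_of_hmin ρbar b rbar hb hpS hmin
  have hS0 : ∀ q ∈ Smin ∪ T, q.Prime := fun q hq => by
    rcases Finset.mem_union.1 hq with h | h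
    · exact hSmin q h
    · exact hT q h
  -- the local bounds: `1` at `T`, `locBound` at `Smin`
  let c : ℕ → ℕ := fun q => if q ∈ T then 1 else locBound p (Mrep rbar) q
  have hc : ∀ (q : ℕ) [Fact q.Prime], q ∈ Smin ∪ T →
      Nat.card (clsSub q (LcFamT rbar p Smin T Pp q)) ≤ c q := by
    intro q _ hq
    by_cases hqT : q ∈ T
    · rw [LcFamT_of_mem p Smin Pp q hqT, card_clsSub_B1]
      change 1 ≤ if q ∈ T then 1 else locBound p (Mrep rbar) q
      rw [if_pos hqT]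
    · have hqS : q ∈ Smin := (Finset.mem_union.1 hq).resolve_right hqT
      rw [LcFamT_of_not_mem p Smin Pp q hqT]
      change _ ≤ if q ∈ T then 1 else locBound p (Mrep rbar) q
      rw [if_neg hqT]
      by_cases hqp : q = p
      · subst hqp
        rw [LcFam_self]
        haveI := hlocp.1
        refine (card_clsSub_le q (LcOf rbar Pp q) (LcOf_le_Z1 Pp q)).trans ?_
        unfold locBound
        rw [if_pos rfl, fixCard_of_prime]
        exact hlocp.2
      · rw [LcFam_of_mem p Smin Pp q hqp hqS]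
        have hram : ¬ ρbar.IsUnramifiedAt q := (hmin q (hSmin q hqS) hqp).1 hqS
        obtain ⟨hf, hle⟩ := Fermat.Agent.S56.Unip.Main.card_LcOf_unip_le_of_isEquiv (rbar := rbar)
          h2 (Fact.out : p.Prime) q (fun h => hqp h.symm) ρbar hrbar e0 hram
        haveI := hf
        refine (card_clsSub_le q (LcOf rbar (Punip p q) q) (LcOf_le_Z1 _ q)).trans ?_
        unfold locBound
        rw [if_neg hqp, one_mul, fixCard_of_prime]
        exact hle
  have hturn := card_turned LP (Smin ∪ T) hS0 (Finset.mem_union_left T hpS)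
    (fun q _ hq s hs => unr_of_rbar_eq_one rbar
      (hunr q (fun h => hq (Finset.mem_union_left T h)) s hs))
    (LcFamT rbar p Smin T Pp) (fun q _ _ => B1_le_LcFamT p Smin T Pp q) hfin hfin' hloc hloc' c hc
  -- the product of the local bounds
  have hprodc : ∏ q ∈ Smin ∪ T, c q = Nat.card k * ∏ q ∈ Smin, fixCard (Mrep rbar) q := by
    rw [Finset.prod_union hST]
    have h1 : ∏ q ∈ T, c q = 1 :=
      Finset.prod_eq_one fun q hq => if_pos hq
    have h3 : ∏ q ∈ Smin, c q = ∏ q ∈ Smin, locBound p (Mrep rbar) q :=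
      Finset.prod_congr rfl fun q hq =>
        if_neg fun hqT => Finset.disjoint_left.1 hST hq hqT
    rw [h1, h3, mul_one, prod_locBound p (Mrep rbar) Smin hpS]
  rw [hprodc] at hturn
  rw [Finset.prod_union hST] at hEC
  have hpos : 0 < Nat.card (Sel (Smin ∪ T) (LocCond.ofLocal (fullFam (MrepTw rbar)))) :=
    Nat.card_pos
  refine Nat.le_of_mul_le_mul_left ?_ hpos
  calc Nat.card (Sel (Smin ∪ T) (LocCond.ofLocal (fullFam (MrepTw rbar)))) *
        (Nat.card (Sel (Smin ∪ T) (LocCond.ofLocal (LcFamT rbar p Smin T Pp))) *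
          ∏ l ∈ T, fixCard (Mrep rbar) l)
      = (Nat.card (Sel (Smin ∪ T) (LocCond.ofLocal (LcFamT rbar p Smin T Pp))) *
          Nat.card (Sel (Smin ∪ T) (LocCond.ofLocal (fullFam (MrepTw rbar))))) *
          ∏ l ∈ T, fixCard (Mrep rbar) l := by ring
    _ ≤ (Nat.card (Sel (Smin ∪ T) (LocCond.ofLocal (strictFam (Mrep rbar)))) *
          (Nat.card k * ∏ q ∈ Smin, fixCard (Mrep rbar) q) *
          Nat.card (Sel (Smin ∪ T) (LocCond.ofLocal (LP.perp (LcFamT rbar p Smin T Pp))))) *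
          ∏ l ∈ T, fixCard (Mrep rbar) l := Nat.mul_le_mul_right _ hturn
    _ = (Nat.card (Sel (Smin ∪ T) (LocCond.ofLocal (strictFam (Mrep rbar)))) *
          (Nat.card k * ((∏ q ∈ Smin, fixCard (Mrep rbar) q) *
            ∏ l ∈ T, fixCard (Mrep rbar) l))) *
          Nat.card (Sel (Smin ∪ T) (LocCond.ofLocal (LP.perp (LcFamT rbar p Smin T Pp)))) := by
        ring
    _ ≤ Nat.card (Sel (Smin ∪ T) (LocCond.ofLocal (fullFam (MrepTw rbar)))) *
          Nat.card (Sel (Smin ∪ T) (LocCond.ofLocal (LP.perp (LcFamT rbar p Smin T Pp)))) :=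
        Nat.mul_le_mul_right _ hEC

end Base

/-! ### The relative count -/

section Count

variable {k : Type} [Field k] (rbar : GQ →* GL (Fin 2) k)

/-- **THE RELATIVE COUNT** (hypothesis-first twin of `S56/Count/Concrete.exists_count`): the base
inequality with the constant `∏ l ∈ T, card H⁰(D_l, ad⁰)` is carried through the Taylor–Wiles
chain over the base set `S₀ = Smin ∪ T`. -/
theorem exists_relCount [Finite k] (p : ℕ) [Fact p.Prime] [CharP k p] (hp2 : p ≠ 2)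
    (ρbar : ResidualGaloisRep k) (habs : ρbar.IsAbsolutelyIrreducible)
    (hdet : (GaloisRepAdic.ofResidualGaloisRep ρbar).DetIsCyclotomic p)
    (hsplit : ∀ σ : GQ, ∃ α β : k, LinearMap.charpoly (ρbar.ρ σ) = (X - C α) * (X - C β))
    (hTW : ∀ (K : Type) [Field K] [Algebra k K] (G : Subgroup GQ), G.index = 2 →
      ∀ V : Submodule K (ρbar.baseChange K).V,
        (∀ σ ∈ G, ∀ x ∈ V, (ρbar.baseChange K).ρ σ x ∈ V) → V = ⊥ ∨ V = ⊤)
    (S Smin T : Finset ℕ) (hpSmin : p ∈ Smin) (hSmin : Smin ⊆ S) (hTS : T ⊆ S)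
    (hS : ∀ q ∈ S, q.Prime)
    (hmin : ∀ q : ℕ, q.Prime → q ≠ p → (q ∈ Smin ↔ ¬ ρbar.IsUnramifiedAt q))
    (b : Module.Basis (Fin 2) k ρbar.V)
    (hb : ∀ g, (rbar g : Matrix (Fin 2) (Fin 2) k) = LinearMap.toMatrix b b (ρbar.ρ g))
    (hMain : ∀ (n : ℕ) (G : Type) [Group G] [Finite G] (π : G →* GL (Fin 2) k)
      (χ : G →* (ZMod (p ^ (n + 1)))ˣ), Fermat.Agent.S56.Grp.TWHyp p n π χ →
        ∀ c : G → Matrix (Fin 2) (Fin 2) k, Fermat.Agent.S56.Grp.IsCocycle π c →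
          ¬ Fermat.Agent.S56.Grp.IsCoboundary π c → (Fermat.Agent.S56.Grp.twSet π χ c).Nonempty)
    (Pp : GaloisRepAdic (DualNumber k) → Prop)
    (LP : LocPairing p (Mrep rbar) (MrepTw rbar)) (C : ℕ)
    (hbase : Nat.card (Sel (Smin ∪ T) (LocCond.ofLocal (LcFamT rbar p Smin T Pp))) * C ≤
      Nat.card (Sel (Smin ∪ T) (LocCond.ofLocal (LP.perp (LcFamT rbar p Smin T Pp)))))
    (hfin : ∀ (Sg : Finset ℕ) (Lc : LocCond (Mrep rbar)), Finite (Sel Sg Lc))
    (hfin' : ∀ (Sg : Finset ℕ) (Lc : LocCond (MrepTw rbar)), Finite (Sel Sg Lc)) :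
    ∃ r : ℕ, ∀ n : ℕ, ∃ Q : Finset ℕ, Q.card = r ∧
      (∀ q ∈ Q, Fermat.Agent.S56.Main.Unpack.IsTWPrime p n ρbar S q) ∧
      Nat.card (Sel (Smin ∪ T ∪ Q) (LocCond.ofLocal (LcFamT rbar p Smin T Pp))) * C ≤
        Nat.card k ^ r := by
  classical
  have := hfin' (Smin ∪ T) (LocCond.ofLocal (LP.perp (LcFamT rbar p Smin T Pp)))
  haveI : Finite (Mrep rbar) := inferInstanceAs (Finite ↥(sl2 k))
  haveI : Finite (MrepTw rbar) := inferInstanceAs (Finite ↥(sl2 k))
  have hS0S : Smin ∪ T ⊆ S := Finset.union_subset hSmin hTS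
  have hS0P : ∀ q ∈ Smin ∪ T, q.Prime := fun q hq => hS q (hS0S hq)
  have hunr := Fermat.Agent.S56.TW.OfResidual.rbar_unr_of_hmin ρbar b rbar hb hpSmin hmin
  have key := exists_le_of_chain (k := k) (M' := MrepTw rbar) (Smin ∪ T)
    (LocCond.ofLocal (LP.perp (LcFamT rbar p Smin T Pp)))
    (Adm p ρbar S) (fun n q h => h.1.1.1)
    (fun Q => Nat.card
      (Fermat.Agent.S56.TW.StepS.DQ LP (Smin ∪ T) Q (LcFamT rbar p Smin T Pp)))
    (Nat.card (Sel (Smin ∪ T) (LocCond.ofLocal (LcFamT rbar p Smin T Pp))) * C)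
    (fun Q => Nat.card (Sel (Smin ∪ T ∪ Q) (LocCond.ofLocal (LcFamT rbar p Smin T Pp))) * C)
    hbase ?_ ?_ ?_ S
  · obtain ⟨r, hr⟩ := key
    refine ⟨r, fun n => ?_⟩
    obtain ⟨Q, hQc, hQa, _, _, hQle⟩ := hr n
    exact ⟨Q, hQc, fun q hq => (hQa q hq).1, hQle⟩
  · -- the Taylor–Wiles step over the base set `Smin ∪ T`
    intro n Q hdisj hQa
    have hf1 := hfin (Smin ∪ T ∪ Q) (LocCond.ofLocal (LcFamT rbar p Smin T Pp))
    have hfree := freeAt_LcFamT (rbar := rbar) p Smin T Q Pp hpSmin hdisj.symm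
    haveI : Finite (Sel (Smin ∪ T ∪ Q)
        (LocCond.ofLocal (freeAt (LcFamT rbar p Smin T Pp) Q))) := by
      rw [hfree]; exact hf1
    have hstep := Fermat.Agent.S56.TW.StepS.card_step LP (Smin ∪ T) Q hS0P
      (fun q hq => (hQa q hq).1.1.1) hdisj.symm
      (fun q _ hq => isTWPrime_of_adm rbar p hp2 ρbar b hb S n q (hQa q hq))
      (Finset.mem_union_left T hpSmin)
      (fun q _ hq s hs => unr_of_rbar_eq_one rbar
        (hunr q (fun h => hq (Finset.mem_union_left T h)) s hs))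
      (LcFamT rbar p Smin T Pp) (fun q _ _ => B1_le_LcFamT p Smin T Pp q)
    rw [hfree] at hstep
    calc Nat.card (Sel (Smin ∪ T ∪ Q) (LocCond.ofLocal (LcFamT rbar p Smin T Pp))) * C *
          Nat.card (Sel (Smin ∪ T) (LocCond.ofLocal (LP.perp (LcFamT rbar p Smin T Pp))))
        = (Nat.card (Sel (Smin ∪ T ∪ Q) (LocCond.ofLocal (LcFamT rbar p Smin T Pp))) *
          Nat.card (Sel (Smin ∪ T) (LocCond.ofLocal (LP.perp (LcFamT rbar p Smin T Pp))))) *
            C := by ring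
      _ ≤ (Nat.card (Sel (Smin ∪ T) (LocCond.ofLocal (LcFamT rbar p Smin T Pp))) *
            Nat.card k ^ Q.card *
            Nat.card (Fermat.Agent.S56.TW.StepS.DQ LP (Smin ∪ T) Q
              (LcFamT rbar p Smin T Pp))) * C := Nat.mul_le_mul_right _ hstep
      _ = _ := by ring
  · -- `card D_Q = 1`
    intro Q _ hQ
    refine card_DQ_eq_one LP (Smin ∪ T) Q (LcFamT rbar p Smin T Pp) fun y hy hloc => ?_
    have h0 := hQ (Submodule.Quotient.mk ⟨y, hy⟩) fun q _ hq =>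
      (locMap_mk_eq_zero_iff q (Smin ∪ T) _ ⟨y, hy⟩).2 (hloc q hq)
    rw [Submodule.Quotient.mk_eq_zero, Submodule.mem_comap] at h0
    exact h0
  · -- detection of non-trivial classes by Taylor–Wiles primes
    intro n T' y hy
    obtain ⟨c, rfl⟩ := Submodule.Quotient.mk_surjective _ y
    have hcZ : c.1 ∈ Z1g (MrepTw rbar) := c.2.1
    have hcB : c.1 ∉ B1g (MrepTw rbar) := by
      intro hB
      apply hy
      rw [Submodule.Quotient.mk_eq_zero, Submodule.mem_comap]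
      exact hB
    obtain ⟨l, hl, hlT, hlp, hdvd, hunr', h⟩ :=
      Fermat.Agent.S56.Cheb.Galois.Export.exists_tw_prime_of_mem_Z1g rbar p ρbar habs hdet hsplit
        hTW b hb n (hMain n) c.1 hcZ hcB (T' ∪ S)
    have : Fact l.Prime := ⟨hl⟩
    refine ⟨l, ⟨hl⟩, fun hT => hlT (Finset.mem_union_left S hT), ⟨⟨⟨hl, fun hS' =>
      hlT (Finset.mem_union_right T' hS'), hdvd⟩, fun P hP φ hφ => ((h P hP).2 φ hφ).1⟩, hlp,
      hunr'⟩, ?_⟩
    rw [Ne, locMap_mk_eq_zero_iff]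
    intro hB
    obtain ⟨φ, hφD, hφ⟩ := exists_frobenius_mem_Dq l
    obtain ⟨a, _, ha⟩ := (mem_B₁_iff _).1 hB
    have h1 := congrFun ha ⟨φ, hφD⟩
    refine ((h (padicPlace l) (liesOverPrime_padicPlace l)).2 φ hφ).2 ⟨a, ?_⟩
    rw [d₀₁_hom_apply] at h1
    exact h1.symm

end Count

end Fermat.Agent.S43.Num.RelCount
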