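/-
PROJECT R (S43), block NUM (leader helper21): THE RELATIVE TANGENT SPACE AND THE RELATIVE
GENERATORS.  Twin of main's `S56/Tan/Main` (never edited), relative to a base ring `A` (= the
local framed ring `R^loc_T` at the stuck primes `T`, in whatever presentation the block LOC gives).

`DQ : DeformationRingData 𝒪 ρbar 𝒟` (the global, UNFRAMED deformation ring), `rbar` a matrix form
of `ρbar`, `k = 𝒪 / 𝔪_𝒪`.

* `card_relHom_le` : for an ideal `I` of `DQ.R` such that every tangent vector `φ : DQ.R → k[ε]`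
  killing `I` has a cocycle which is LOCALLY TRIVIAL at the primes of `T` (`hI`),
    `card {φ : DQ.R →ₐ[𝒪] k[ε] // φ kills I} ≤ card Sel(Smin ∪ T ∪ Q, L^T)`
  (`L^T = RelCount.LcFamT`: strict at `T`);
* `exists_surjective_of_card_relHom_le` : pure algebra.  `𝒪 → A → R` local homomorphisms of local
  rings, `A` and `R` complete, `𝒪 → R/𝔪_R` onto, `k` finite.  If at most `(card k) ^ g` of the
  `𝒪`-algebra maps `R → k[ε]` kill `𝔪_A R`, then `R` is a quotient of `A⟦X₁,…,X_g⟧` AS AN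
  `A`-ALGEBRA (main's `Tan/DualHom.exists_surjective_of_card_le` over the base `A`);
* `exists_surjective_rel` : THE EXPORT OF NUM: `card Sel(Smin ∪ T ∪ Q, L^T) ≤ (card k) ^ g` gives
  `∃ γ : A⟦X₁,…,X_g⟧ →ₐ[A] DQ.R` onto.
-/
import Fermat.Agent.S43.Num.RelCount
import Fermat.Agent.S56.Tan.Main

set_option autoImplicit false
set_option linter.unusedSectionVars false
set_option linter.style.haveILetI false

noncomputable section

namespace Fermat.Agent.S43.Num.RelTan

open IsLocalRing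
open Fermat.Agent.CFT.LC Fermat.Agent.CFT.Bridge Fermat.Agent.CFT.LocalBridge
open Fermat.Agent.S56.Coh Fermat.Agent.S56.Coh.CocDefs
open Fermat.Agent.S53.Dictionary hiding GQ
open Fermat.Agent.S53.TangentBound Fermat.Agent.S53.GoodTower
open Fermat.Agent.S56.Tan.DualHom Fermat.Agent.S56.Tan.Universal Fermat.Agent.S56.Tan.Cocycle
open Fermat.Agent.S56.Tan.Main
open Fermat.Agent.S43.Num.RelCount

attribute [local instance] algDual

/-! ### the count of the relative tangent vectors -/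

section Count

variable {𝒪 : Type} [CommRing 𝒪] [IsDomain 𝒪] [IsDiscreteValuationRing 𝒪]
  [IsAdicComplete (maximalIdeal 𝒪) 𝒪]
  {ρbar : ResidualGaloisRep (ResidueField 𝒪)}
  {𝒟 : ∀ ⦃A : Type⦄ [CommRing A] [IsLocalRing A] [Algebra 𝒪 A], GaloisRepAdic A → Prop}
  (DQ : GaloisRep.DeformationRingData 𝒪 ρbar 𝒟)
  (rbar : GQ →* GL (Fin 2) (ResidueField 𝒪))
  (hrbar : GaloisFactorsThroughFiniteLevel (rbarM rbar))
  (e0 : ρbar.IsEquiv (resOfMat (rbarM rbar) hrbar))
  (p : ℕ) [Fact p.Prime] (Smin T Q : Finset ℕ)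
  (Pp : GaloisRepAdic (DualNumber (ResidueField 𝒪)) → Prop)
  (hD : ∀ ρA : GaloisRepAdic (DualNumber (ResidueField 𝒪)), 𝒟 ρA →
    ρA.DetIsCyclotomic p ∧ Pp ρA ∧ (∀ q ∈ Smin, q.Prime → q ≠ p → Punip p q ρA) ∧
      ∀ q : ℕ, q.Prime → q ∉ Smin ∪ (T ∪ Q) → ρA.IsUnramifiedAt q)
  (hDeq : ∀ ρ ρ' : GaloisRepAdic (DualNumber (ResidueField 𝒪)), ρ.IsEquiv ρ' → 𝒟 ρ → 𝒟 ρ')
  (hbc : ∀ φ : DQ.R →ₐ[𝒪] DualNumber (ResidueField 𝒪), Function.Surjective φ →
    𝒟 (liftOf DQ φ))

include hD hDeq in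
/-- the cocycle of a lift of type `𝒟` which is locally trivial at `T` is a Selmer cocycle for the
family `L^T` -/
theorem cocOf_mem_SelZ_T {ρA : GaloisRepAdic (DualNumber (ResidueField 𝒪))} (hρA : 𝒟 ρA)
    (L : MatLift rbar) (hL : ρA.IsEquiv (ofMat L.r L.cont))
    (hloc : ∀ (l : ℕ) [Fact l.Prime], l ∈ T →
      resFun (Dq l) (cocOf L) ∈ B1 (Dq l) (Mrep rbar)) :
    cocOf L ∈ SelZ (Smin ∪ T ∪ Q) (LocCond.ofLocal (LcFamT rbar p Smin T Pp)) := by
  classical
  obtain ⟨hZ, hunr, hL'⟩ := cocOf_mem_SelZ_of_isEquiv rbar p Smin (T ∪ Q) Pp hD hDeq hρA L hL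
  have hassoc : Smin ∪ T ∪ Q = Smin ∪ (T ∪ Q) := Finset.union_assoc Smin T Q
  refine ⟨hZ, fun q _ hq => hunr q (hassoc ▸ hq), fun q hq => ?_⟩
  by_cases hqprime : q.Prime
  · haveI : Fact q.Prime := ⟨hqprime⟩
    rw [mem_ofLocal_L_iff]
    by_cases hqT : q ∈ T
    · rw [LcFamT_of_mem p Smin Pp q hqT]
      exact hloc q hqT
    · rw [LcFamT_of_not_mem p Smin Pp q hqT]
      have h1 := hL' q (hassoc ▸ hq)
      rwa [mem_ofLocal_L_iff] at h1
  · rw [Fermat.Agent.S56.Coh.ofLocal_L_of_not_prime _ hqprime]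
    exact Submodule.mem_top

variable (I : Ideal DQ.R)
  (hI : ∀ φ : DQ.R →ₐ[𝒪] DualNumber (ResidueField 𝒪), (∀ a ∈ I, φ a = 0) →
    Function.Surjective φ → ∀ L : MatLift rbar, (liftOf DQ φ).IsEquiv (ofMat L.r L.cont) →
      ∀ (l : ℕ) [Fact l.Prime], l ∈ T → resFun (Dq l) (cocOf L) ∈ B1 (Dq l) (Mrep rbar))

/-- the relative tangent vectors: `𝒪`-algebra maps `DQ.R → k[ε]` killing `I` -/
abbrev RelHom : Type :=
  {φ : DQ.R →ₐ[𝒪] DualNumber (ResidueField 𝒪) // ∀ a ∈ I, φ a = 0}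

open Classical in
/-- the class map `RelHom → Sel(Smin ∪ T ∪ Q, L^T)` -/
def clsT (φ : RelHom DQ I) :
    Sel (Smin ∪ T ∪ Q) (LocCond.ofLocal (LcFamT rbar p Smin T Pp)) :=
  if h : Function.Surjective φ.1 then
    Submodule.Quotient.mk
      ⟨cocOf (exists_matLift_liftOf DQ rbar hrbar e0 p Smin (T ∪ Q) Pp hD φ.1 (hbc φ.1 h)).choose,
        cocOf_mem_SelZ_T rbar p Smin T Q Pp hD hDeq (hbc φ.1 h) _
          (exists_matLift_liftOf DQ rbar hrbar e0 p Smin (T ∪ Q) Pp hD φ.1 (hbc φ.1 h)).choose_spec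
          (hI φ.1 φ.2 h _
            (exists_matLift_liftOf DQ rbar hrbar e0 p Smin (T ∪ Q) Pp hD φ.1
              (hbc φ.1 h)).choose_spec)⟩
  else 0

include e0 hD hDeq hbc hI in
/-- **the relative tangent space injects into the Selmer group with the strict condition at `T`** -/
theorem card_relHom_le
    [Finite (Sel (Smin ∪ T ∪ Q) (LocCond.ofLocal (LcFamT rbar p Smin T Pp)))] :
    Finite (RelHom DQ I) ∧
      Nat.card (RelHom DQ I) ≤
        Nat.card (Sel (Smin ∪ T ∪ Q) (LocCond.ofLocal (LcFamT rbar p Smin T Pp))) := by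
  classical
  have hF : Function.Injective (clsT DQ rbar hrbar e0 p Smin T Q Pp hD hDeq hbc I hI) := by
    intro φ ψ hφψ
    apply Subtype.ext
    by_cases h1 : Function.Surjective φ.1 <;> by_cases h2 : Function.Surjective ψ.1
    · unfold clsT at hφψ
      rw [dif_pos h1, dif_pos h2] at hφψ
      obtain ⟨a, ha⟩ := exists_of_mk_eq _ _ hφψ
      have e1 := (exists_matLift_liftOf DQ rbar hrbar e0 p Smin (T ∪ Q) Pp hD φ.1
        (hbc φ.1 h1)).choose_spec
      have e2 := (exists_matLift_liftOf DQ rbar hrbar e0 p Smin (T ∪ Q) Pp hD ψ.1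
        (hbc ψ.1 h2)).choose_spec
      exact eq_of_isEquiv DQ φ.1 ψ.1 (hbc ψ.1 h2)
        (isEquiv_trans e1 (isEquiv_trans (isEquiv_of_sub_eq _ _ a ha) (isEquiv_symm e2)))
    · exfalso
      unfold clsT at hφψ
      rw [dif_pos h1, dif_neg h2] at hφψ
      obtain ⟨a, ha⟩ := exists_of_mk_eq _ 0 (hφψ.trans (Submodule.Quotient.mk_zero _).symm)
      have e1 := (exists_matLift_liftOf DQ rbar hrbar e0 p Smin (T ∪ Q) Pp hD φ.1
        (hbc φ.1 h1)).choose_spec
      have e3 : (liftOf DQ φ.1).IsEquiv (liftOf DQ (zeroHom DQ.residue_surjective)) := by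
        refine isEquiv_trans e1 (isEquiv_trans (isEquiv_of_sub_eq _ (trivLift rbar hrbar) a ?_)
          (isEquiv_symm (liftOf_zeroHom_isEquiv DQ rbar hrbar e0)))
        intro σ
        rw [cocOf_trivLift]
        exact ha σ
      have h3 := eq_of_isEquiv DQ _ _ (hbc φ.1 h1) (isEquiv_symm e3)
      exact zeroHom_not_surjective DQ.residue_surjective (h3 ▸ h1)
    · exfalso
      unfold clsT at hφψ
      rw [dif_neg h1, dif_pos h2] at hφψ
      obtain ⟨a, ha⟩ := exists_of_mk_eq _ 0 (hφψ.symm.trans (Submodule.Quotient.mk_zero _).symm)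
      have e1 := (exists_matLift_liftOf DQ rbar hrbar e0 p Smin (T ∪ Q) Pp hD ψ.1
        (hbc ψ.1 h2)).choose_spec
      have e3 : (liftOf DQ ψ.1).IsEquiv (liftOf DQ (zeroHom DQ.residue_surjective)) := by
        refine isEquiv_trans e1 (isEquiv_trans (isEquiv_of_sub_eq _ (trivLift rbar hrbar) a ?_)
          (isEquiv_symm (liftOf_zeroHom_isEquiv DQ rbar hrbar e0)))
        intro σ
        rw [cocOf_trivLift]
        exact ha σ
      have h3 := eq_of_isEquiv DQ _ _ (hbc ψ.1 h2) (isEquiv_symm e3)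
      exact zeroHom_not_surjective DQ.residue_surjective (h3 ▸ h2)
    · rw [eq_zeroHom_of_not_surjective DQ.residue_surjective φ.1 h1,
        eq_zeroHom_of_not_surjective DQ.residue_surjective ψ.1 h2]
  exact ⟨Finite.of_injective _ hF, Nat.card_le_card_of_injective _ hF⟩

end Count

/-! ### the algebra: relative generators from the relative tangent count -/

section Algebra

variable {K K' : Type} [Field K] [Field K']

/-- the map `K[ε] → K'[ε]` induced by a ring homomorphism `K → K'` -/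
def dualMap (f : K →+* K') : DualNumber K →+* DualNumber K' where
  toFun x := TrivSqZeroExt.inl (f (TrivSqZeroExt.fst x)) + TrivSqZeroExt.inr (f (TrivSqZeroExt.snd x))
  map_one' := by
    apply TrivSqZeroExt.ext <;> simp
  map_mul' x y := by
    apply TrivSqZeroExt.ext
    · simp
    · simp [mul_comm]
  map_zero' := by
    apply TrivSqZeroExt.ext <;> simp
  map_add' x y := by
    apply TrivSqZeroExt.ext <;> simp

theorem fst_dualMap (f : K →+* K') (x : DualNumber K) :
    TrivSqZeroExt.fst (dualMap f x) = f (TrivSqZeroExt.fst x) := by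
  simp [dualMap]

theorem snd_dualMap (f : K →+* K') (x : DualNumber K) :
    TrivSqZeroExt.snd (dualMap f x) = f (TrivSqZeroExt.snd x) := by
  simp [dualMap]

theorem dualMap_injective (f : K →+* K') : Function.Injective (dualMap f) := by
  intro x y h
  apply TrivSqZeroExt.ext
  · exact f.injective (by rw [← fst_dualMap, ← fst_dualMap, h])
  · exact f.injective (by rw [← snd_dualMap, ← snd_dualMap, h])

variable {𝒪 A R : Type} [CommRing 𝒪] [IsLocalRing 𝒪] [CommRing A] [IsLocalRing A] [CommRing R]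
  [IsLocalRing R] [Algebra 𝒪 A] [Algebra A R] [Algebra 𝒪 R] [IsScalarTower 𝒪 A R]
  [IsLocalHom (algebraMap 𝒪 A)] [IsLocalHom (algebraMap A R)] [IsLocalHom (algebraMap 𝒪 R)]

/-- `𝒪 → A/𝔪_A` is onto when `𝒪 → R/𝔪_R` is -/
theorem residue_surjective_base (hres : Function.Surjective (residue R ∘ algebraMap 𝒪 R)) :
    Function.Surjective (residue A ∘ algebraMap 𝒪 A) := by
  intro y
  obtain ⟨a, rfl⟩ := residue_surjective y
  obtain ⟨o, ho⟩ := hres (residue R (algebraMap A R a))
  refine ⟨o, ?_⟩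
  rw [Function.comp_apply] at ho ⊢
  rw [IsScalarTower.algebraMap_apply 𝒪 A R, ← sub_eq_zero, ← map_sub, residue_eq_zero_iff,
    ← map_sub] at ho
  rw [← sub_eq_zero, ← map_sub, residue_eq_zero_iff]
  by_contra hne
  have hu : IsUnit (algebraMap 𝒪 A o - a) := by
    by_contra hnu
    exact hne ((mem_maximalIdeal _).2 hnu)
  exact (mem_maximalIdeal _).1 ho (hu.map (algebraMap A R))

/-- `A → R/𝔪_R` is onto when `𝒪 → R/𝔪_R` is -/
theorem residue_surjective_top (hres : Function.Surjective (residue R ∘ algebraMap 𝒪 R)) :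
    Function.Surjective (residue R ∘ algebraMap A R) := by
  intro y
  obtain ⟨o, ho⟩ := hres y
  refine ⟨algebraMap 𝒪 A o, ?_⟩
  rw [Function.comp_apply] at ho ⊢
  rw [← IsScalarTower.algebraMap_apply 𝒪 A R]
  exact ho

variable (hres : Function.Surjective (residue R ∘ algebraMap 𝒪 R))

/-- the inverse of `k → k_A` -/
def resInv : ResidueField A →+* ResidueField 𝒪 :=
  ((RingEquiv.ofBijective (ResidueField.map (algebraMap 𝒪 A))
    (residueField_map_bijective (residue_surjective_base (A := A) hres))).symm :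
      ResidueField A →+* ResidueField 𝒪)

theorem resInv_residue_algebraMap (o : 𝒪) :
    resInv (A := A) hres (residue A (algebraMap 𝒪 A o)) = residue 𝒪 o := by
  unfold resInv
  rw [RingHom.coe_coe, RingEquiv.symm_apply_eq]
  rfl

/-- an `A`-algebra map `R → k_A[ε]` as an `𝒪`-algebra map `R → k[ε]` killing `𝔪_A R` -/
def toRel (ψ : R →ₐ[A] DualNumber (ResidueField A)) :
    {φ : R →ₐ[𝒪] DualNumber (ResidueField 𝒪) //
      ∀ a ∈ (maximalIdeal A).map (algebraMap A R), φ a = 0} :=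
  ⟨{ toRingHom := (dualMap (resInv (A := A) hres)).comp (ψ : R →+* DualNumber (ResidueField A))
     commutes' := fun o => by
      show dualMap (resInv (A := A) hres) (ψ (algebraMap 𝒪 R o)) = _
      rw [IsScalarTower.algebraMap_apply 𝒪 A R, ψ.commutes]
      apply TrivSqZeroExt.ext
      · rw [fst_dualMap, fst_algebraMap, fst_algebraMap, resInv_residue_algebraMap]
      · rw [snd_dualMap, snd_algebraMap, snd_algebraMap, map_zero] },
    by
      intro a ha
      have hle : (maximalIdeal A).map (algebraMap A R) ≤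
          RingHom.ker ((dualMap (resInv (A := A) hres)).comp
            (ψ : R →+* DualNumber (ResidueField A))) := by
        rw [Ideal.map_le_iff_le_comap]
        intro x hx
        rw [Ideal.mem_comap, RingHom.mem_ker, RingHom.comp_apply]
        show dualMap (resInv (A := A) hres) (ψ (algebraMap A R x)) = 0
        rw [ψ.commutes]
        apply TrivSqZeroExt.ext
        · rw [fst_dualMap, fst_algebraMap, (residue_eq_zero_iff x).2 hx, map_zero]
          rfl
        · rw [snd_dualMap, snd_algebraMap, map_zero]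
          rfl
      exact hle ha⟩

theorem toRel_injective : Function.Injective (toRel (𝒪 := 𝒪) (A := A) (R := R) hres) := by
  intro ψ ψ' h
  apply AlgHom.ext
  intro x
  have h1 := congrArg (fun φ => (φ.1 : R →ₐ[𝒪] DualNumber (ResidueField 𝒪)) x) h
  exact dualMap_injective _ h1

include hres in
/-- **relative generators**: if at most `(card k) ^ g` of the `𝒪`-algebra maps `R → k[ε]` kill
`𝔪_A R`, then `R` is a quotient of `A⟦X₁,…,X_g⟧` as an `A`-algebra. -/
theorem exists_surjective_of_card_relHom_le [Finite (ResidueField 𝒪)]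
    [IsAdicComplete (maximalIdeal A) A] [IsAdicComplete (maximalIdeal R) R]
    [Finite {φ : R →ₐ[𝒪] DualNumber (ResidueField 𝒪) //
      ∀ a ∈ (maximalIdeal A).map (algebraMap A R), φ a = 0}] {g : ℕ}
    (h : Nat.card {φ : R →ₐ[𝒪] DualNumber (ResidueField 𝒪) //
      ∀ a ∈ (maximalIdeal A).map (algebraMap A R), φ a = 0} ≤ Nat.card (ResidueField 𝒪) ^ g) :
    ∃ γ : MvPowerSeries (Fin g) A →ₐ[A] R, Function.Surjective γ := by
  have hbij := residueField_map_bijective (residue_surjective_base (A := A) hres)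
  haveI : Finite (ResidueField A) := Finite.of_surjective _ hbij.2
  have hcardk : Nat.card (ResidueField A) = Nat.card (ResidueField 𝒪) :=
    (Nat.card_congr (Equiv.ofBijective _ hbij)).symm
  haveI : Finite (R →ₐ[A] DualNumber (ResidueField A)) :=
    Finite.of_injective _ (toRel_injective (𝒪 := 𝒪) (A := A) (R := R) hres)
  have h1 : Nat.card (R →ₐ[A] DualNumber (ResidueField A)) ≤ Nat.card (ResidueField A) ^ g := by
    rw [hcardk]
    exact (Nat.card_le_card_of_injective _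
      (toRel_injective (𝒪 := 𝒪) (A := A) (R := R) hres)).trans h
  exact exists_surjective_of_card_le (𝒪 := A) (R := R) (residue_surjective_top hres) h1

end Algebra

/-! ### the export -/

section Export

variable {𝒪 : Type} [CommRing 𝒪] [IsDomain 𝒪] [IsDiscreteValuationRing 𝒪]
  [IsAdicComplete (maximalIdeal 𝒪) 𝒪] [Finite (ResidueField 𝒪)]
  {ρbar : ResidualGaloisRep (ResidueField 𝒪)}
  {𝒟 : ∀ ⦃A : Type⦄ [CommRing A] [IsLocalRing A] [Algebra 𝒪 A], GaloisRepAdic A → Prop}
  (DQ : GaloisRep.DeformationRingData 𝒪 ρbar 𝒟)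
  (rbar : GQ →* GL (Fin 2) (ResidueField 𝒪))
  (hrbar : GaloisFactorsThroughFiniteLevel (rbarM rbar))
  (e0 : ρbar.IsEquiv (resOfMat (rbarM rbar) hrbar))
  (p : ℕ) [Fact p.Prime] (Smin T Q : Finset ℕ)
  (Pp : GaloisRepAdic (DualNumber (ResidueField 𝒪)) → Prop)

include e0 in
/-- **THE EXPORT OF NUM**: the global deformation ring `DQ.R` is a quotient of `A⟦X₁,…,X_g⟧` as an
`A`-algebra, for every complete local `𝒪`-algebra `A` over which `DQ.R` is a local algebra such
that the tangent vectors of `DQ.R` which are trivial on `A` have cocycles locally trivial at `T`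
(`hθ`; for `A = R^loc_T` this is the universal property of the local framed ring), as soon as
`card Sel(Smin ∪ T ∪ Q, L^T) ≤ (card k) ^ g`. -/
theorem exists_surjective_rel
    (hD : ∀ ρA : GaloisRepAdic (DualNumber (ResidueField 𝒪)), 𝒟 ρA →
      ρA.DetIsCyclotomic p ∧ Pp ρA ∧ (∀ q ∈ Smin, q.Prime → q ≠ p → Punip p q ρA) ∧
        ∀ q : ℕ, q.Prime → q ∉ Smin ∪ (T ∪ Q) → ρA.IsUnramifiedAt q)
    (hDeq : ∀ ρ ρ' : GaloisRepAdic (DualNumber (ResidueField 𝒪)), ρ.IsEquiv ρ' → 𝒟 ρ → 𝒟 ρ')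
    (hbc : ∀ φ : DQ.R →ₐ[𝒪] DualNumber (ResidueField 𝒪), Function.Surjective φ →
      𝒟 (liftOf DQ φ))
    {A : Type} [CommRing A] [IsLocalRing A] [IsAdicComplete (maximalIdeal A) A] [Algebra 𝒪 A]
    [Algebra A DQ.R] [IsScalarTower 𝒪 A DQ.R] [IsLocalHom (algebraMap 𝒪 A)]
    [IsLocalHom (algebraMap A DQ.R)]
    (hθ : ∀ φ : DQ.R →ₐ[𝒪] DualNumber (ResidueField 𝒪),
      (∀ a ∈ (maximalIdeal A).map (algebraMap A DQ.R), φ a = 0) →
      Function.Surjective φ → ∀ L : MatLift rbar, (liftOf DQ φ).IsEquiv (ofMat L.r L.cont) →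
        ∀ (l : ℕ) [Fact l.Prime], l ∈ T → resFun (Dq l) (cocOf L) ∈ B1 (Dq l) (Mrep rbar))
    [Finite (Sel (Smin ∪ T ∪ Q) (LocCond.ofLocal (LcFamT rbar p Smin T Pp)))] {g : ℕ}
    (hcard : Nat.card (Sel (Smin ∪ T ∪ Q) (LocCond.ofLocal (LcFamT rbar p Smin T Pp))) ≤
      Nat.card (ResidueField 𝒪) ^ g) :
    ∃ γ : MvPowerSeries (Fin g) A →ₐ[A] DQ.R, Function.Surjective γ := by
  obtain ⟨hfin, hle⟩ := card_relHom_le DQ rbar hrbar e0 p Smin T Q Pp hD hDeq hbc
    ((maximalIdeal A).map (algebraMap A DQ.R)) hθ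
  haveI := hfin
  exact exists_surjective_of_card_relHom_le (𝒪 := 𝒪) (A := A) (R := DQ.R) DQ.residue_surjective
    (hle.trans hcard)

end Export

end Fermat.Agent.S43.Num.RelTan
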