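/-
PROJECT R (S43), block NUM (leader helper21), T-design (chief's #6120): THE TRACE FUNCTIONALS
SEPARATE THE COCYCLE CLASSES.

Part A (pure algebra): `G` a group, `r : G → M₂(k)` multiplicative whose values span `M₂(k)`
(Burnside, for an absolutely irreducible `r`), `D : G → M₂(k)` with
`D (σ τ) = r σ * D τ + D σ * r τ` and `tr D σ = 0` for all `σ`.  Then `D σ = r σ * m - m * r σ`
for one matrix `m` (`exists_inner`): `D` extends to a derivation of `k[G]`, which kills the kernel
of `k[G] → M₂(k)` (trace pairing), and the derivations of `M₂(k)` are inner.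

Part B: for `rbar : GQ →* GL₂(k)` whose values span `M₂(k)`, `2 ≠ 0` in `k`: a cocycle
`c ∈ Z¹(G_ℚ, ad⁰ rbar)` with `tr (c σ * rbar σ) = 0` for all `σ` is a coboundary
(`mem_B1g_of_trace_eq_zero`).
-/
import Fermat.Agent.S56.Coh.CocDefs

set_option autoImplicit false
set_option linter.unusedSectionVars false
set_option linter.unusedSimpArgs false

noncomputable section

namespace Fermat.Agent.S43.Num.Sep

open Matrix

/-! ### Part A -/

section Algebra

variable {k : Type*} [Field k] {G : Type*} [Group G]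

/-- the linear extension of `r : G → M₂(k)` to `k[G]` (as finitely supported functions) -/
abbrev Rl (r : G → Matrix (Fin 2) (Fin 2) k) : (G →₀ k) →ₗ[k] Matrix (Fin 2) (Fin 2) k :=
  Finsupp.linearCombination k r

/-- the linear extension of `D` (same definition, second name for readability) -/
abbrev Dl (D : G → Matrix (Fin 2) (Fin 2) k) : (G →₀ k) →ₗ[k] Matrix (Fin 2) (Fin 2) k :=
  Finsupp.linearCombination k D

variable (r : G → Matrix (Fin 2) (Fin 2) k) (hr : ∀ σ τ, r (σ * τ) = r σ * r τ)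
  (D : G → Matrix (Fin 2) (Fin 2) k) (hD : ∀ σ τ, D (σ * τ) = r σ * D τ + D σ * r τ)

include hr in
theorem Rl_mapDomain_mul_right (x : G →₀ k) (τ : G) :
    Rl r (Finsupp.mapDomain (· * τ) x) = Rl r x * r τ := by
  rw [Finsupp.linearCombination_mapDomain]
  have h1 : (r ∘ fun σ => σ * τ) = (LinearMap.mulRight k (r τ)) ∘ r := by
    funext σ
    simp [hr]
  rw [h1, ← LinearMap.map_finsupp_linearCombination]
  rfl

include hD in
theorem Dl_mapDomain_mul_right (x : G →₀ k) (τ : G) :
    Dl D (Finsupp.mapDomain (· * τ) x) = Rl r x * D τ + Dl D x * r τ := by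
  rw [Finsupp.linearCombination_mapDomain]
  have h1 : (D ∘ fun σ => σ * τ) =
      fun σ => (LinearMap.mulRight k (D τ)) (r σ) + (LinearMap.mulRight k (r τ)) (D σ) := by
    funext σ
    simp [hD]
  rw [h1]
  have h2 : Finsupp.linearCombination k
      (fun σ => (LinearMap.mulRight k (D τ)) (r σ) + (LinearMap.mulRight k (r τ)) (D σ)) x =
      Finsupp.linearCombination k ((LinearMap.mulRight k (D τ)) ∘ r) x +
        Finsupp.linearCombination k ((LinearMap.mulRight k (r τ)) ∘ D) x := by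
    simp only [Finsupp.linearCombination_apply, Finsupp.sum, Function.comp_apply, smul_add,
      Finset.sum_add_distrib]
  rw [h2, ← LinearMap.map_finsupp_linearCombination, ← LinearMap.map_finsupp_linearCombination]
  rfl

theorem trace_Dl (htr : ∀ σ, (D σ).trace = 0) (x : G →₀ k) : (Dl D x).trace = 0 := by
  have h := LinearMap.map_finsupp_linearCombination (Matrix.traceLinearMap (Fin 2) k k) (g := D) x
  rw [Matrix.traceLinearMap_apply] at h
  rw [h]
  have h0 : ((Matrix.traceLinearMap (Fin 2) k k) ∘ D) = fun _ => (0 : k) := by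
    funext σ
    simp [htr]
  rw [h0]
  simp [Finsupp.linearCombination_apply]

include hr hD in
/-- **the derivation kills the kernel of `k[G] → M₂(k)`** -/
theorem Dl_eq_zero_of_Rl_eq_zero (hspan : Submodule.span k (Set.range r) = ⊤)
    (htr : ∀ σ, (D σ).trace = 0) {x : G →₀ k} (hx : Rl r x = 0) : Dl D x = 0 := by
  have h1 : ∀ τ, (Dl D x * r τ).trace = 0 := by
    intro τ
    have h2 := Dl_mapDomain_mul_right r D hD x τ
    rw [hx, Matrix.zero_mul, zero_add] at h2
    rw [← h2]
    exact trace_Dl D htr _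
  have h3 : ∀ Y : Matrix (Fin 2) (Fin 2) k, (Dl D x * Y).trace = 0 := by
    intro Y
    have hY : Y ∈ Submodule.span k (Set.range r) := by rw [hspan]; exact Submodule.mem_top
    induction hY using Submodule.span_induction with
    | mem Y hY =>
      obtain ⟨τ, rfl⟩ := hY
      exact h1 τ
    | zero => simp
    | add Y Z _ _ hY hZ => rw [Matrix.mul_add, Matrix.trace_add, hY, hZ, add_zero]
    | smul a Y _ hY => rw [Matrix.mul_smul, Matrix.trace_smul, hY, smul_zero]
  rw [Matrix.ext_iff_trace_mul_right]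
  intro Y
  rw [h3 Y, Matrix.zero_mul, Matrix.trace_zero]

/-- derivations of `M₂(k)` are inner -/
theorem inner_of_derivation (δ : Matrix (Fin 2) (Fin 2) k →ₗ[k] Matrix (Fin 2) (Fin 2) k) (hδ : ∀ Y Z, δ (Y * Z) = Y * δ Z + δ Y * Z) :
    ∃ m : Matrix (Fin 2) (Fin 2) k, ∀ a, δ a = a * m - m * a := by
  refine ⟨Matrix.single 0 0 1 * δ (Matrix.single 0 0 1) +
    Matrix.single 1 0 1 * δ (Matrix.single 0 1 1), fun a => ?_⟩
  -- `m * a = a * m - δ a`
  have e1 : ∀ i : Fin 2, (Matrix.single 0 i (1 : k) : Matrix (Fin 2) (Fin 2) k) * a =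
      a i 0 • Matrix.single 0 0 1 + a i 1 • Matrix.single 0 1 1 := by
    intro i
    ext u v
    fin_cases i <;> fin_cases u <;> fin_cases v <;>
      simp [Matrix.mul_apply, Fin.sum_univ_two, Matrix.single_apply]
  have e2 : ∀ j : Fin 2, a * (Matrix.single j 0 (1 : k) : Matrix (Fin 2) (Fin 2) k) =
      a 0 j • Matrix.single 0 0 1 + a 1 j • Matrix.single 1 0 1 := by
    intro j
    ext u v
    fin_cases j <;> fin_cases u <;> fin_cases v <;>
      simp [Matrix.mul_apply, Fin.sum_univ_two, Matrix.single_apply]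
  have e3 : (Matrix.single 0 0 (1 : k) : Matrix (Fin 2) (Fin 2) k) * Matrix.single 0 0 1 +
      Matrix.single 1 0 1 * Matrix.single 0 1 1 = 1 := by
    ext u v
    fin_cases u <;> fin_cases v <;>
      simp [Matrix.mul_apply, Fin.sum_univ_two, Matrix.single_apply]
  have h0 := hδ (Matrix.single 0 0 1) a
  have h1 := hδ (Matrix.single 0 1 1) a
  rw [e1 0, map_add, map_smul, map_smul] at h0
  rw [e1 1, map_add, map_smul, map_smul] at h1
  -- `E_{i0} δ(E_{0i}) a = E_{i0} (δ (E_{0i} a) - E_{0i} δ a)`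
  have k0 : δ (Matrix.single 0 0 1) * a =
      a 0 0 • δ (Matrix.single 0 0 1) + a 0 1 • δ (Matrix.single 0 1 1) -
        Matrix.single 0 0 1 * δ a := by rw [h0]; abel
  have k1 : δ (Matrix.single 0 1 1) * a =
      a 1 0 • δ (Matrix.single 0 0 1) + a 1 1 • δ (Matrix.single 0 1 1) -
        Matrix.single 0 1 1 * δ a := by rw [h1]; abel
  have hm : (Matrix.single 0 0 1 * δ (Matrix.single 0 0 1) +
      Matrix.single 1 0 1 * δ (Matrix.single 0 1 1)) * a =
      a * (Matrix.single 0 0 1 * δ (Matrix.single 0 0 1) +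
        Matrix.single 1 0 1 * δ (Matrix.single 0 1 1)) - δ a := by
    rw [Matrix.add_mul, Matrix.mul_assoc, Matrix.mul_assoc, k0, k1, Matrix.mul_add,
      ← Matrix.mul_assoc a, ← Matrix.mul_assoc a, e2 0, e2 1]
    have hone : δ a = (Matrix.single 0 0 (1 : k) * Matrix.single 0 0 1 +
      Matrix.single 1 0 1 * Matrix.single 0 1 1 : Matrix (Fin 2) (Fin 2) k) * δ a := by rw [e3, Matrix.one_mul]
    conv_rhs => rw [hone]
    simp only [Matrix.mul_sub, Matrix.mul_add, Matrix.add_mul, Matrix.mul_smul, Matrix.smul_mul,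
      Matrix.mul_assoc]
    abel
  rw [hm]
  abel

include hr hD in
/-- **Part A**: `D σ = r σ * m - m * r σ` -/
theorem exists_inner (hspan : Submodule.span k (Set.range r) = ⊤)
    (htr : ∀ σ, (D σ).trace = 0) : ∃ m : Matrix (Fin 2) (Fin 2) k, ∀ σ, D σ = r σ * m - m * r σ := by
  have hsurj : LinearMap.range (Rl r) = ⊤ := by
    rw [Finsupp.range_linearCombination, hspan]
  obtain ⟨s, hs⟩ := LinearMap.exists_rightInverse_of_surjective (Rl r) hsurj
  have hs' : ∀ Y, Rl r (s Y) = Y := fun Y => LinearMap.congr_fun hs Y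
  -- `δ ∘ Rl = Dl`
  have hδR : ∀ x, Dl D (s (Rl r x)) = Dl D x := by
    intro x
    have h1 : Rl r (s (Rl r x) - x) = 0 := by rw [map_sub, hs', sub_self]
    have h2 := Dl_eq_zero_of_Rl_eq_zero r hr D hD hspan htr h1
    rwa [map_sub, sub_eq_zero] at h2
  have hδr : ∀ τ, Dl D (s (r τ)) = D τ := by
    intro τ
    have h1 : Rl r (Finsupp.single τ 1) = r τ := by simp [Finsupp.linearCombination_single]
    have h2 := hδR (Finsupp.single τ 1)
    rw [h1] at h2
    rw [h2]
    simp [Finsupp.linearCombination_single]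
  -- the derivation property
  have hder : ∀ Y Z, (Dl D ∘ₗ s) (Y * Z) = Y * (Dl D ∘ₗ s) Z + (Dl D ∘ₗ s) Y * Z := by
    intro Y Z
    have hZ : Z ∈ Submodule.span k (Set.range r) := by rw [hspan]; exact Submodule.mem_top
    induction hZ using Submodule.span_induction with
    | mem Z hZ =>
      obtain ⟨τ, rfl⟩ := hZ
      simp only [LinearMap.comp_apply]
      have h1 : Rl r (Finsupp.mapDomain (· * τ) (s Y)) = Y * r τ := by
        rw [Rl_mapDomain_mul_right r hr, hs']
      have h2 := hδR (Finsupp.mapDomain (· * τ) (s Y))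
      rw [h1] at h2
      rw [h2, Dl_mapDomain_mul_right r D hD, hs', hδr]
    | zero => simp
    | add Z Z' _ _ hZ hZ' =>
      rw [Matrix.mul_add, map_add, hZ, hZ', map_add, Matrix.mul_add, Matrix.mul_add]
      abel
    | smul a Z _ hZ =>
      rw [Matrix.mul_smul, map_smul, hZ, map_smul, Matrix.mul_smul, Matrix.mul_smul, smul_add]
  obtain ⟨m, hm⟩ := inner_of_derivation (Dl D ∘ₗ s) hder
  refine ⟨m, fun σ => ?_⟩
  rw [← hm, LinearMap.comp_apply, hδr]

end Algebra

/-! ### Part B -/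

section Galois

open Fermat.Agent.CFT.LC Fermat.Agent.CFT.Bridge Fermat.Agent.S56.Coh Fermat.Agent.S56.Coh.CocDefs

variable {k : Type} [Field k] (rbar : GQ →* GL (Fin 2) k)

/-- the matrix of `rbar σ` -/
abbrev rM (σ : GQ) : Matrix (Fin 2) (Fin 2) k := (rbar σ : Matrix (Fin 2) (Fin 2) k)

theorem rM_mul (σ τ : GQ) : rM rbar (σ * τ) = rM rbar σ * rM rbar τ := by
  rw [rM, map_mul, Units.val_mul]

theorem rM_mul_inv (σ : GQ) :
    rM rbar σ * (((rbar σ)⁻¹ : GL (Fin 2) k) : Matrix (Fin 2) (Fin 2) k) = 1 := by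
  rw [rM, ← Units.val_mul, mul_inv_cancel, Units.val_one]

theorem inv_mul_rM (σ : GQ) :
    (((rbar σ)⁻¹ : GL (Fin 2) k) : Matrix (Fin 2) (Fin 2) k) * rM rbar σ = 1 := by
  rw [rM, ← Units.val_mul, inv_mul_cancel, Units.val_one]

/-- **the trace functionals separate the cocycle classes**: a cocycle with values in `ad⁰ rbar`
all of whose trace functionals `σ ↦ tr (c σ * rbar σ)` vanish is a coboundary. -/
theorem mem_B1g_of_trace_eq_zero (h2 : (2 : k) ≠ 0)
    (hspan : Submodule.span k (Set.range (rM rbar)) = ⊤)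
    {c : GQ → Mrep rbar} (hc : c ∈ Z1g (Mrep rbar))
    (htr : ∀ σ, ((c σ : sl2 k).1 * rM rbar σ).trace = 0) : c ∈ B1g (Mrep rbar) := by
  obtain ⟨hcoc, U, hU, hlc⟩ := (mem_Z1g_iff c).1 hc
  -- the derivation
  have hD : ∀ σ τ, (c (σ * τ) : sl2 k).1 * rM rbar (σ * τ) =
      rM rbar σ * ((c τ : sl2 k).1 * rM rbar τ) + (c σ : sl2 k).1 * rM rbar σ * rM rbar τ := by
    intro σ τ
    have h1 := congrArg (fun x : sl2 k => (x : Matrix (Fin 2) (Fin 2) k)) (hcoc σ τ)
    simp only [Submodule.coe_add] at h1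
    rw [Mrep_ρ_coe] at h1
    rw [h1, rM_mul, Matrix.add_mul]
    congr 1
    · rw [Matrix.mul_assoc, Matrix.mul_assoc, ← Matrix.mul_assoc _ (rM rbar σ), inv_mul_rM,
        Matrix.one_mul]
    · rw [Matrix.mul_assoc]
  obtain ⟨m, hm⟩ := exists_inner (rM rbar) (rM_mul rbar)
    (fun σ => (c σ : sl2 k).1 * rM rbar σ) hD hspan htr
  -- the trace-zero part of `m`
  set m0 : Matrix (Fin 2) (Fin 2) k := m - (m.trace / 2) • (1 : Matrix (Fin 2) (Fin 2) k) with hm0
  have hm0tr : m0.trace = 0 := by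
    rw [hm0, Matrix.trace_sub, Matrix.trace_smul, Matrix.trace_one, Fintype.card_fin, smul_eq_mul]
    field_simp
    ring
  have hcσ : ∀ σ, (c σ : sl2 k).1 =
      rM rbar σ * m0 * (((rbar σ)⁻¹ : GL (Fin 2) k) : Matrix (Fin 2) (Fin 2) k) - m0 := by
    intro σ
    have h1 : (c σ : sl2 k).1 = (c σ : sl2 k).1 * rM rbar σ *
        (((rbar σ)⁻¹ : GL (Fin 2) k) : Matrix (Fin 2) (Fin 2) k) := by
      rw [Matrix.mul_assoc, rM_mul_inv, Matrix.mul_one]
    rw [h1, hm σ, hm0]
    simp only [Matrix.sub_mul, Matrix.mul_sub, Matrix.mul_smul, Matrix.smul_mul, Matrix.mul_one,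
      Matrix.mul_assoc, rM_mul_inv]
    abel
  let a : Mrep rbar := (⟨m0, mem_sl2.2 hm0tr⟩ : sl2 k)
  have hca : ∀ σ, c σ = (Mrep rbar).ρ σ a - a := by
    intro σ
    apply Subtype.ext
    rw [Submodule.coe_sub, Mrep_ρ_coe]
    exact hcσ σ
  rw [mem_B₁_iff]
  refine ⟨a, ⟨U, hU, fun s hs => ?_⟩, ?_⟩
  · have h1 : c (1 * s) = c 1 := hlc.1 1 s hs
    rw [one_mul, hca s, hca 1, map_one, Module.End.one_apply, sub_self, sub_eq_zero] at h1
    exact h1
  · funext σ
    rw [groupCohomology.d₀₁_hom_apply]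
    exact (hca σ).symm

end Galois

end Fermat.Agent.S43.Num.Sep
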