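/-
PROJECT R (S43), block NUM (leader helper21), T-DESIGN (chief's #6120: patch the Hecke algebras
`T_Q` directly, no universal deformation ring): THE RELATIVE GENERATORS OF AN ABSTRACT PAIR
`(R, rR)`, WITH THE GENERATORS NAMED.

`𝒪 → R` complete local with residue field `k`, `rR : G_ℚ → M₂(R)` continuous lifting `rbar`
(matrix form; `R = T_Q`, `rR` = a matrix form of `ρ_T`).  For a tangent vector
`φ : R →ₐ[𝒪] k[ε]` the push-forward `pushMat rR φ` is a matrix lift of `rbar` to `k[ε]`.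

* `LiftHypM`   (H1): every push-forward has cyclotomic determinant, the property `Pp` at `p`, is
  unipotent on inertia at `q ∈ Smin`, unramified outside `Smin ∪ T ∪ Q`;
* `TrivOnBaseM` (H2): if `φ` kills `𝔪_A R` its cocycle is locally trivial at every `l ∈ T`;
* `TraceSepM`  (H3): a tangent vector is determined by its values on the traces `tr rR σ`;
* `trSel σ`    : the trace functional `[c] ↦ tr (c σ * rbar σ)` on a Selmer group; they separate
  (`eq_zero_of_trSel_eq_zero`, from `Num/Sep`), hence `g ≥ dim Sel` of them are jointly injective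
  (`exists_tau`);
* `exists_surjective_traces` : THE THEOREM.  If `τ₁ … τ_g ∈ G_ℚ` are jointly injective on
  `Sel(Smin ∪ T ∪ Q, L^T)` and `c_j ∈ 𝒪` lifts `tr rbar τ_j`, then
  `A⟦X₁,…,X_g⟧ → R`, `X_j ↦ tr rR τ_j - c_j` is onto.  The SAME `τ_j, c_j` serve every `(R, rR)`.
-/
import Fermat.Agent.S43.Num.RelTan
import Fermat.Agent.S43.Num.Sep

set_option autoImplicit false
set_option linter.unusedSectionVars false
set_option linter.style.haveILetI false

noncomputable section

namespace Fermat.Agent.S43.Num.RelTanT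

open IsLocalRing
open Fermat.Agent.CFT.LC Fermat.Agent.CFT.Bridge Fermat.Agent.CFT.LocalBridge
open Fermat.Agent.S56.Coh Fermat.Agent.S56.Coh.CocDefs
open Fermat.Agent.S53.Dictionary hiding GQ
open Fermat.Agent.S53.TangentBound Fermat.Agent.S53.GoodTower
open Fermat.Agent.S56.Tan.DualHom Fermat.Agent.S56.Tan.Universal Fermat.Agent.S56.Tan.Cocycle
open Fermat.Agent.S56.Tan.Main
open Fermat.Agent.S43.Num.RelCount Fermat.Agent.S43.Num.RelTan

attribute [local instance] algDual

/-! ### linear algebra: finitely many of a separating family of functionals are jointly injective -/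

section Select

variable {k V ι : Type*} [Field k] [AddCommGroup V] [Module k V] [FiniteDimensional k V]

theorem exists_fin_jointly_injective_aux [Nonempty ι] (f : ι → V →ₗ[k] k)
    (hsep : ∀ x : V, (∀ i, f i x = 0) → x = 0) :
    ∀ (g : ℕ) (K : Submodule k V), Module.finrank k K ≤ g →
      ∃ τ : Fin g → ι, ∀ x ∈ K, (∀ j, f (τ j) x = 0) → x = 0 := by
  intro g
  induction g with
  | zero =>
    intro K hK
    have hK0 : K = ⊥ := Submodule.finrank_eq_zero.mp (Nat.le_zero.mp hK)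
    refine ⟨fun j => j.elim0, fun x hx _ => ?_⟩
    rw [hK0] at hx
    exact (Submodule.mem_bot k).mp hx
  | succ g ih =>
    intro K hK
    by_cases hK0 : K = ⊥
    · refine ⟨fun _ => Classical.arbitrary ι, fun x hx _ => ?_⟩
      rw [hK0] at hx
      exact (Submodule.mem_bot k).mp hx
    · obtain ⟨x, hxK, hx0⟩ := (Submodule.ne_bot_iff K).mp hK0
      have hex : ∃ i, f i x ≠ 0 := by
        by_contra hcon
        exact hx0 (hsep x fun i => by_contra fun hi => hcon ⟨i, hi⟩)
      obtain ⟨i, hi⟩ := hex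
      have hlt : K ⊓ LinearMap.ker (f i) < K := by
        refine lt_of_le_of_ne inf_le_left fun heq => hi ?_
        have : x ∈ K ⊓ LinearMap.ker (f i) := by rw [heq]; exact hxK
        exact LinearMap.mem_ker.mp this.2
      have hfr : Module.finrank k ↥(K ⊓ LinearMap.ker (f i)) ≤ g := by
        have := Submodule.finrank_lt_finrank_of_lt hlt
        omega
      obtain ⟨τ', hτ'⟩ := ih _ hfr
      refine ⟨Fin.cons i τ', fun y hy hall => ?_⟩
      have h0 : f i y = 0 := by simpa using hall 0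
      refine hτ' y ⟨hy, LinearMap.mem_ker.mpr h0⟩ fun j => ?_
      simpa using hall j.succ

theorem exists_fin_jointly_injective [Nonempty ι] (f : ι → V →ₗ[k] k)
    (hsep : ∀ x : V, (∀ i, f i x = 0) → x = 0) {g : ℕ} (hg : Module.finrank k V ≤ g) :
    ∃ τ : Fin g → ι, ∀ x : V, (∀ j, f (τ j) x = 0) → x = 0 := by
  obtain ⟨τ, hτ⟩ := exists_fin_jointly_injective_aux f hsep g ⊤ (by rwa [finrank_top])
  exact ⟨τ, fun x hx => hτ x Submodule.mem_top hx⟩

end Select

/-! ### the trace functionals on a Selmer group -/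

section Trace

variable {k : Type} [Field k] (rbar : GQ →* GL (Fin 2) k)

/-- `c ↦ tr (c σ * rbar σ)` on functions `G_ℚ → ad⁰` -/
def trZ (σ : GQ) : (GQ → Mrep rbar) →ₗ[k] k where
  toFun c := ((c σ : sl2 k).1 * (rbar σ : Matrix (Fin 2) (Fin 2) k)).trace
  map_add' c c' := by
    show (((c σ + c' σ : Mrep rbar) : sl2 k).1 * _).trace = _
    rw [Submodule.coe_add, Matrix.add_mul, Matrix.trace_add]
  map_smul' a c := by
    show (((a • c σ : Mrep rbar) : sl2 k).1 * _).trace = _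
    rw [Submodule.coe_smul, Matrix.smul_mul, Matrix.trace_smul]
    rfl

theorem trZ_apply (σ : GQ) (c : GQ → Mrep rbar) :
    trZ rbar σ c = ((c σ : sl2 k).1 * (rbar σ : Matrix (Fin 2) (Fin 2) k)).trace := rfl

/-- coboundaries have zero trace functionals -/
theorem trZ_eq_zero_of_mem_B1g (σ : GQ) {c : GQ → Mrep rbar} (hc : c ∈ B1g (Mrep rbar)) :
    trZ rbar σ c = 0 := by
  obtain ⟨a, -, rfl⟩ := (mem_B₁_iff c).1 hc
  rw [trZ_apply, groupCohomology.d₀₁_hom_apply, Submodule.coe_sub, Mrep_ρ_coe, Matrix.sub_mul,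
    Matrix.trace_sub, Matrix.mul_assoc, ← Units.val_mul, inv_mul_cancel, Units.val_one,
    Matrix.mul_one, Matrix.trace_mul_comm, sub_self]

variable {rbar}

/-- the trace functional on a Selmer group -/
def trSel (Sg : Finset ℕ) (Lc : LocCond (Mrep rbar)) (σ : GQ) : Sel Sg Lc →ₗ[k] k :=
  Submodule.liftQ _ ((trZ rbar σ) ∘ₗ (SelZ Sg Lc).subtype) (by
    intro c hc
    rw [Submodule.mem_comap] at hc
    rw [LinearMap.mem_ker, LinearMap.comp_apply]
    exact trZ_eq_zero_of_mem_B1g rbar σ hc)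

theorem trSel_mk (Sg : Finset ℕ) (Lc : LocCond (Mrep rbar)) (σ : GQ) (c : SelZ Sg Lc) :
    trSel Sg Lc σ (Submodule.Quotient.mk c) = trZ rbar σ c.1 := rfl

/-- **the trace functionals separate the Selmer classes** -/
theorem eq_zero_of_trSel_eq_zero (h2 : (2 : k) ≠ 0)
    (hspan : Submodule.span k (Set.range (Sep.rM rbar)) = ⊤)
    (Sg : Finset ℕ) (Lc : LocCond (Mrep rbar)) (x : Sel Sg Lc)
    (hx : ∀ σ, trSel Sg Lc σ x = 0) : x = 0 := by
  induction x using Submodule.Quotient.induction_on with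
  | H c =>
    rw [Submodule.Quotient.mk_eq_zero, Submodule.mem_comap]
    exact Sep.mem_B1g_of_trace_eq_zero rbar h2 hspan (SelZ_le_Z1g Sg Lc c.2)
      fun σ => hx σ

/-- **finitely many trace functionals are jointly injective** -/
theorem exists_tau [Finite k] (h2 : (2 : k) ≠ 0)
    (hspan : Submodule.span k (Set.range (Sep.rM rbar)) = ⊤)
    (Sg : Finset ℕ) (Lc : LocCond (Mrep rbar)) [Finite (Sel Sg Lc)] {g : ℕ}
    (hcard : Nat.card (Sel Sg Lc) ≤ Nat.card k ^ g) :
    ∃ τ : Fin g → GQ, ∀ x : Sel Sg Lc, (∀ j, trSel Sg Lc (τ j) x = 0) → x = 0 := by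
  haveI : Module.Finite k (Sel Sg Lc) := Module.Finite.of_finite
  have hdim : Module.finrank k (Sel Sg Lc) ≤ g := by
    rw [Module.natCard_eq_pow_finrank (K := k) (V := Sel Sg Lc)] at hcard
    exact (Nat.pow_le_pow_iff_right Finite.one_lt_card).mp hcard
  exact exists_fin_jointly_injective (fun σ => trSel Sg Lc σ)
    (eq_zero_of_trSel_eq_zero h2 hspan Sg Lc) hdim

end Trace

/-! ### the push-forwards of `rR` along tangent vectors -/

section Push

variable {𝒪 : Type} [CommRing 𝒪] [IsLocalRing 𝒪]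
  {R : Type} [CommRing R] [IsLocalRing R] [Algebra 𝒪 R] [IsLocalHom (algebraMap 𝒪 R)]
  (hres : Function.Surjective (residue R ∘ algebraMap 𝒪 R))
  (rbar : GQ →* GL (Fin 2) (ResidueField 𝒪))
  (rR : GQ →* Mat R) (hR : IsContMat R rR)
  (hrR : mapMat (residue R) rR = mapMat (ResidueField.map (algebraMap 𝒪 R)) (rbarM rbar))

include hrR in
/-- the entries of `rR` reduce to those of `rbar` -/
theorem resk_entry (σ : GQ) (i j : Fin 2) :
    resk hres (rR σ i j) = (rbar σ : Matrix (Fin 2) (Fin 2) (ResidueField 𝒪)) i j := by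
  have h1 : residue R (rR σ i j) =
      ResidueField.map (algebraMap 𝒪 R)
        ((rbar σ : Matrix (Fin 2) (Fin 2) (ResidueField 𝒪)) i j) := by
    have := congrArg (fun t : GQ →* Mat (ResidueField R) => t σ i j) hrR
    simpa using this
  unfold resk
  rw [RingHom.comp_apply, RingHom.coe_coe, RingEquiv.symm_apply_eq, h1]
  rfl

include hrR in
theorem resk_trace (σ : GQ) :
    resk hres ((rR σ).trace) =
      (rbar σ : Matrix (Fin 2) (Fin 2) (ResidueField 𝒪)).trace := by
  rw [Matrix.trace_fin_two, Matrix.trace_fin_two, map_add, resk_entry hres rbar rR hrR,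
    resk_entry hres rbar rR hrR]

/-- the push-forward of `rR` along a tangent vector -/
def pushMat (φ : R →ₐ[𝒪] DualNumber (ResidueField 𝒪)) :
    GQ →* Mat (DualNumber (ResidueField 𝒪)) :=
  mapMat (φ : R →+* DualNumber (ResidueField 𝒪)) rR

theorem pushMat_apply (φ : R →ₐ[𝒪] DualNumber (ResidueField 𝒪)) (σ : GQ) (i j : Fin 2) :
    pushMat rR φ σ i j = φ (rR σ i j) := rfl

theorem trace_pushMat (φ : R →ₐ[𝒪] DualNumber (ResidueField 𝒪)) (σ : GQ) :
    (pushMat rR φ σ).trace = φ ((rR σ).trace) := by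
  rw [Matrix.trace_fin_two, Matrix.trace_fin_two, map_add, pushMat_apply, pushMat_apply]

include hres hR in
theorem isContMat_pushMat (φ : R →ₐ[𝒪] DualNumber (ResidueField 𝒪)) :
    IsContMat (DualNumber (ResidueField 𝒪)) (pushMat rR φ) :=
  isContMat_mapMat _ (isLocalHom_algHom hres φ) rR hR

include hres hrR in
theorem mfst_pushMat (φ : R →ₐ[𝒪] DualNumber (ResidueField 𝒪)) (σ : GQ) :
    mfst (pushMat rR φ σ) = (rbar σ : Matrix (Fin 2) (Fin 2) (ResidueField 𝒪)) := by
  ext i j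
  rw [mfst_apply, pushMat_apply, fst_algHom hres φ, resk_entry hres rbar rR hrR]

/-- the push-forward as a `GaloisRepAdic` over `k[ε]` -/
def pushRep (φ : R →ₐ[𝒪] DualNumber (ResidueField 𝒪)) :
    GaloisRepAdic (DualNumber (ResidueField 𝒪)) :=
  ofMat (pushMat rR φ) (isContMat_pushMat hres rR hR φ)

variable (p : ℕ) [Fact p.Prime] (Smin T Q : Finset ℕ)
  (Pp : GaloisRepAdic (DualNumber (ResidueField 𝒪)) → Prop)

/-- **(H1)** the local conditions on the push-forwards -/
def LiftHypM : Prop :=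
  ∀ φ : R →ₐ[𝒪] DualNumber (ResidueField 𝒪),
    (pushRep hres rR hR φ).DetIsCyclotomic p ∧ Pp (pushRep hres rR hR φ) ∧
      (∀ q ∈ Smin, q.Prime → q ≠ p → Punip p q (pushRep hres rR hR φ)) ∧
      ∀ q : ℕ, q.Prime → q ∉ Smin ∪ (T ∪ Q) → (pushRep hres rR hR φ).IsUnramifiedAt q

/-- **(H3)** a tangent vector is determined by its values on the traces -/
def TraceSepM : Prop :=
  ∀ φ ψ : R →ₐ[𝒪] DualNumber (ResidueField 𝒪),
    (∀ σ : GQ, φ ((rR σ).trace) = ψ ((rR σ).trace)) → φ = ψ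

/-- the matrix lift of `rbar` given by a tangent vector -/
def liftL (φ : R →ₐ[𝒪] DualNumber (ResidueField 𝒪))
    (hdet : (pushRep hres rR hR φ).DetIsCyclotomic p) : MatLift rbar where
  r := pushMat rR φ
  cont := isContMat_pushMat hres rR hR φ
  fst_eq := mfst_pushMat hres rbar rR hrR φ
  det_eq σ := by
    have h1 := snd_det_eq_zero p _ hdet σ
    rwa [pushRep, det_ofMat] at h1

/-- **(H2)** a tangent vector which is trivial on the base ring `A` has a cocycle which is locally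
trivial at every `l ∈ T` -/
def TrivOnBaseM (A : Type) [CommRing A] [IsLocalRing A] [Algebra A R] : Prop :=
  ∀ φ : R →ₐ[𝒪] DualNumber (ResidueField 𝒪),
    (∀ a ∈ (maximalIdeal A).map (algebraMap A R), φ a = 0) →
    ∀ L : MatLift rbar, L.r = pushMat rR φ →
      ∀ (l : ℕ) [Fact l.Prime], l ∈ T → resFun (Dq l) (cocOf L) ∈ B1 (Dq l) (Mrep rbar)

variable {rbar}

/-- the trace functional of the cocycle of a matrix lift is the `ε`-part of the trace -/
theorem trZ_cocOf (L : MatLift rbar) (σ : GQ) :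
    trZ rbar σ (cocOf L) = TrivSqZeroExt.snd ((L.r σ).trace) := by
  rw [trZ_apply, ← msnd_eq L σ, Matrix.trace_fin_two, Matrix.trace_fin_two, msnd_apply,
    msnd_apply, TrivSqZeroExt.snd_add]

/-- strengthening a Selmer cocycle for `LcFam` to `L^T` when it is locally trivial at `T` -/
theorem mem_SelZ_T {c : GQ → Mrep rbar}
    (h : c ∈ SelZ (Smin ∪ (T ∪ Q)) (LocCond.ofLocal (LcFam rbar p Smin Pp)))
    (hloc : ∀ (l : ℕ) [Fact l.Prime], l ∈ T → resFun (Dq l) c ∈ B1 (Dq l) (Mrep rbar)) :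
    c ∈ SelZ (Smin ∪ T ∪ Q) (LocCond.ofLocal (LcFamT rbar p Smin T Pp)) := by
  classical
  obtain ⟨hZ, hunr, hL'⟩ := h
  have hassoc : Smin ∪ T ∪ Q = Smin ∪ (T ∪ Q) := Finset.union_assoc Smin T Q
  refine ⟨hZ, fun q _ hq => hunr q (hassoc ▸ hq), fun q hq => ?_⟩
  by_cases hqprime : q.Prime
  · haveI : Fact q.Prime := ⟨hqprime⟩
    rw [mem_ofLocal_L_iff]
    by_cases hqT : q ∈ T
    · rw [LcFamT_of_mem p Smin Pp q hqT]
      exact hloc q hqT
    · rw [LcFamT_of_not_mem p Smin Pp q hqT]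
      have h1 := hL' q (hassoc ▸ hq)
      rwa [mem_ofLocal_L_iff] at h1
  · rw [Fermat.Agent.S56.Coh.ofLocal_L_of_not_prime _ hqprime]
    exact Submodule.mem_top

end Push

/-! ### pure algebra: generators from a jointly injective family of evaluations -/

section Gen

variable {A R : Type} [CommRing A] [IsLocalRing A] [CommRing R] [IsLocalRing R] [Algebra A R]
  [IsLocalHom (algebraMap A R)]
  (hresA : Function.Surjective (residue R ∘ algebraMap A R))

include hresA in
/-- if no non-zero `A`-derivation `R → k_A` kills all `x_j`, the `x_j` generate `𝔪_R` modulo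
`𝔪_A R + 𝔪_R ^ 2` -/
theorem le_of_forall_lam {g : ℕ} (x : Fin g → R) (hx : ∀ j, x j ∈ maximalIdeal R)
    (hsep : ∀ ℓ : Lam hresA, (∀ j, ℓ.1 (x j) = 0) → ℓ = 0) :
    maximalIdeal R ≤ (maximalIdeal A).map (algebraMap A R) ⊔ Ideal.span (Set.range x)
      ⊔ maximalIdeal R ^ 2 := by
  classical
  intro y hy
  -- the evaluation at the `x_j`
  let E : Lam hresA →ₗ[ResidueField A] (Fin g → ResidueField A) :=
    { toFun := fun ℓ j => ℓ.1 (x j)
      map_add' := fun ℓ ℓ' => rfl
      map_smul' := fun a ℓ => rfl }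
  have hE : LinearMap.ker E = ⊥ := by
    rw [LinearMap.ker_eq_bot']
    intro ℓ hℓ
    exact hsep ℓ fun j => congrFun hℓ j
  obtain ⟨G, hG⟩ := LinearMap.exists_leftInverse_of_injective E hE
  let ev : Lam hresA →ₗ[ResidueField A] ResidueField A :=
    { toFun := fun ℓ => ℓ.1 y
      map_add' := fun ℓ ℓ' => rfl
      map_smul' := fun a ℓ => rfl }
  let F : (Fin g → ResidueField A) →ₗ[ResidueField A] ResidueField A := ev ∘ₗ G
  have hF : ∀ ℓ : Lam hresA, ℓ.1 y = ∑ j, ℓ.1 (x j) * F (Pi.single j 1) := by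
    intro ℓ
    have h1 : ev ℓ = F (E ℓ) := by
      show ev ℓ = ev (G (E ℓ))
      have := LinearMap.congr_fun hG ℓ
      rw [LinearMap.comp_apply, LinearMap.id_apply] at this
      rw [this]
    have h2 := LinearMap.pi_apply_eq_sum_univ F (E ℓ)
    rw [← h1] at h2
    rw [show ℓ.1 y = ev ℓ from rfl, h2]
    refine Finset.sum_congr rfl fun j _ => ?_
    rw [smul_eq_mul]
    congr 2
    funext i
    simp [Pi.single_apply, eq_comm]
  choose a ha using fun j => resk_surjective hresA (F (Pi.single j 1))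
  set z : R := y - ∑ j, a j * x j with hz
  have hzm : z ∈ maximalIdeal R :=
    Ideal.sub_mem _ hy (Ideal.sum_mem _ fun j _ => Ideal.mul_mem_left _ _ (hx j))
  have hzcot : z ∈ cotIdeal A R := by
    refine mem_cotIdeal_of_forall hresA hzm fun ℓ hℓ => ?_
    have hFℓ : ℓ y = ∑ j, ℓ (x j) * F (Pi.single j 1) := hF ⟨ℓ, hℓ⟩
    rw [hz, Lam.map_sub hresA hℓ, Lam.map_sum hresA hℓ, hFℓ, sub_eq_zero]
    refine Finset.sum_congr rfl fun j _ => ?_
    rw [Lam.map_mul_of_mem hresA hℓ (a j) (hx j), ha j, mul_comm]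
  have hy' : y = z + ∑ j, a j * x j := by rw [hz]; ring
  rw [hy']
  unfold cotIdeal at hzcot
  obtain ⟨u, hu, v, hv, huv⟩ := Submodule.mem_sup.mp hzcot
  rw [← huv]
  have h1 : u ∈ (maximalIdeal A).map (algebraMap A R) ⊔ Ideal.span (Set.range x)
      ⊔ maximalIdeal R ^ 2 := Ideal.mem_sup_right hu
  have h2 : v ∈ (maximalIdeal A).map (algebraMap A R) ⊔ Ideal.span (Set.range x)
      ⊔ maximalIdeal R ^ 2 := Ideal.mem_sup_left (Ideal.mem_sup_left hv)
  have h3 : ∑ j, a j * x j ∈ (maximalIdeal A).map (algebraMap A R) ⊔ Ideal.span (Set.range x)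
      ⊔ maximalIdeal R ^ 2 :=
    Ideal.mem_sup_left (Ideal.mem_sup_right (Ideal.sum_mem _ fun j _ =>
      Ideal.mul_mem_left _ _ (Ideal.subset_span ⟨j, rfl⟩)))
  exact Ideal.add_mem _ (Ideal.add_mem _ h1 h2) h3

end Gen

/-! ### the theorem -/

section Main

variable {𝒪 : Type} [CommRing 𝒪] [IsLocalRing 𝒪]
  {R : Type} [CommRing R] [IsLocalRing R] [Algebra 𝒪 R] [IsLocalHom (algebraMap 𝒪 R)]
  (hres : Function.Surjective (residue R ∘ algebraMap 𝒪 R))
  {rbar : GQ →* GL (Fin 2) (ResidueField 𝒪)}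
  (rR : GQ →* Mat R) (hR : IsContMat R rR)
  (hrR : mapMat (residue R) rR = mapMat (ResidueField.map (algebraMap 𝒪 R)) (rbarM rbar))
  (p : ℕ) [Fact p.Prime] (Smin T Q : Finset ℕ)
  (Pp : GaloisRepAdic (DualNumber (ResidueField 𝒪)) → Prop)
  (hH : LiftHypM hres rR hR p Smin T Q Pp)
  (hSep : TraceSepM (𝒪 := 𝒪) rR)
  {A : Type} [CommRing A] [IsLocalRing A] [Algebra 𝒪 A] [Algebra A R] [IsScalarTower 𝒪 A R]
  [IsLocalHom (algebraMap 𝒪 A)] [IsLocalHom (algebraMap A R)]
  (hTriv : TrivOnBaseM (𝒪 := 𝒪) rbar rR T A)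

/-- the relative tangent vectors: `𝒪`-algebra maps `R → k[ε]` killing `𝔪_A R` -/
abbrev RelHomT (A R : Type) [CommRing A] [IsLocalRing A] [CommRing R] [IsLocalRing R]
    [Algebra 𝒪 R] [Algebra A R] : Type :=
  {φ : R →ₐ[𝒪] DualNumber (ResidueField 𝒪) //
    ∀ a ∈ (maximalIdeal A).map (algebraMap A R), φ a = 0}

/-- the matrix lift of a relative tangent vector -/
def liftT (φ : RelHomT (𝒪 := 𝒪) A R) : MatLift rbar :=
  liftL hres rbar rR hR hrR p φ.1 (hH φ.1).1

include hTriv in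
theorem cocOf_liftT_mem (φ : RelHomT (𝒪 := 𝒪) A R) :
    cocOf (liftT hres rR hR hrR p Smin T Q Pp hH φ) ∈
      SelZ (Smin ∪ T ∪ Q) (LocCond.ofLocal (LcFamT rbar p Smin T Pp)) :=
  mem_SelZ_T p Smin T Q Pp
    (cocOf_mem_SelZ p Smin (T ∪ Q) Pp (liftT hres rR hR hrR p Smin T Q Pp hH φ)
      (hH φ.1).2.1 (hH φ.1).2.2.1 (hH φ.1).2.2.2)
    (hTriv φ.1 φ.2 _ rfl)

/-- the class of a relative tangent vector in the Selmer group with the strict condition at `T` -/
def clsT (φ : RelHomT (𝒪 := 𝒪) A R) :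
    Sel (Smin ∪ T ∪ Q) (LocCond.ofLocal (LcFamT rbar p Smin T Pp)) :=
  Submodule.Quotient.mk ⟨cocOf (liftT hres rR hR hrR p Smin T Q Pp hH φ),
    cocOf_liftT_mem hres rR hR hrR p Smin T Q Pp hH hTriv φ⟩

/-- the trace functional of the class is the `ε`-part of the image of the trace -/
theorem trSel_clsT (φ : RelHomT (𝒪 := 𝒪) A R) (σ : GQ) :
    trSel _ _ σ (clsT hres rR hR hrR p Smin T Q Pp hH hTriv φ) =
      TrivSqZeroExt.snd (φ.1 ((rR σ).trace)) := by
  rw [clsT, trSel_mk, trZ_cocOf]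
  show TrivSqZeroExt.snd ((pushMat rR φ.1 σ).trace) = _
  rw [trace_pushMat]

include hSep in
/-- **a relative tangent vector whose class is zero is the zero tangent vector** -/
theorem eq_zeroHom_of_clsT_eq_zero (φ : RelHomT (𝒪 := 𝒪) A R)
    (h0 : clsT hres rR hR hrR p Smin T Q Pp hH hTriv φ = 0) : φ.1 = zeroHom hres := by
  have hB : cocOf (liftT hres rR hR hrR p Smin T Q Pp hH φ) ∈ B1g (Mrep rbar) := by
    rw [clsT, Submodule.Quotient.mk_eq_zero, Submodule.mem_comap] at h0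
    exact h0
  refine hSep _ _ fun σ => ?_
  have h1 : TrivSqZeroExt.snd (φ.1 ((rR σ).trace)) = 0 := by
    rw [← trSel_clsT hres rR hR hrR p Smin T Q Pp hH hTriv φ σ, clsT, trSel_mk]
    exact trZ_eq_zero_of_mem_B1g rbar σ hB
  rw [algHom_apply hres φ.1, h1, zeroHom_apply]
  simp

variable [IsAdicComplete (maximalIdeal A) A] [IsAdicComplete (maximalIdeal R) R]

include hres hR hrR hH hSep hTriv in
/-- **the cotangent form**: the elements `tr rR τ_j - c_j` lie in `𝔪_R` and generate it modulo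
`𝔪_A R + 𝔪_R ^ 2`. -/
theorem le_of_traces {g : ℕ} (τ : Fin g → GQ)
    (hτ : ∀ x : Sel (Smin ∪ T ∪ Q) (LocCond.ofLocal (LcFamT rbar p Smin T Pp)),
      (∀ j, trSel _ _ (τ j) x = 0) → x = 0)
    (c : Fin g → 𝒪)
    (hc : ∀ j, residue 𝒪 (c j) =
      (rbar (τ j) : Matrix (Fin 2) (Fin 2) (ResidueField 𝒪)).trace) :
    (∀ j, (rR (τ j)).trace - algebraMap 𝒪 R (c j) ∈ maximalIdeal R) ∧
    maximalIdeal R ≤ (maximalIdeal A).map (algebraMap A R) ⊔
      Ideal.span (Set.range fun j => (rR (τ j)).trace - algebraMap 𝒪 R (c j))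
      ⊔ maximalIdeal R ^ 2 := by
  have hresA : Function.Surjective (residue R ∘ algebraMap A R) :=
    residue_surjective_top (𝒪 := 𝒪) (A := A) (R := R) hres
  set x : Fin g → R := fun j => (rR (τ j)).trace - algebraMap 𝒪 R (c j) with hxdef
  have hx : ∀ j, x j ∈ maximalIdeal R := by
    intro j
    rw [← resk_eq_zero_iff hres, hxdef, map_sub, resk_trace hres rbar rR hrR, resk_algebraMap,
      hc j, sub_self]
  have hsep : ∀ ℓ : Lam hresA, (∀ j, ℓ.1 (x j) = 0) → ℓ = 0 := by
    intro ℓ hℓ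
    set φ : RelHomT (𝒪 := 𝒪) A R := toRel (𝒪 := 𝒪) (A := A) (R := R) hres (toHom hresA ℓ) with hφ
    have hsnd : ∀ a : R, TrivSqZeroExt.snd (φ.1 a) = resInv (A := A) hres (ℓ.1 a) := by
      intro a
      show TrivSqZeroExt.snd (dualMap (resInv (A := A) hres) (toHom hresA ℓ a)) = _
      rw [snd_dualMap, snd_toHom]
    -- the class of `φ` is killed by the `τ_j`
    have h0 : clsT hres rR hR hrR p Smin T Q Pp hH hTriv φ = 0 := by
      refine hτ _ fun j => ?_
      rw [trSel_clsT]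
      have h1 : (rR (τ j)).trace = x j + algebraMap 𝒪 R (c j) := by rw [hxdef]; ring
      rw [h1, map_add, TrivSqZeroExt.snd_add, AlgHom.commutes, snd_algebraMap, add_zero, hsnd,
        hℓ j, map_zero]
    have h2 := eq_zeroHom_of_clsT_eq_zero hres rR hR hrR p Smin T Q Pp hH hSep hTriv φ h0
    apply Subtype.ext
    funext a
    have h3 : TrivSqZeroExt.snd (φ.1 a) = 0 := by
      rw [h2, zeroHom_apply]
      simp
    rw [hsnd] at h3
    exact (map_eq_zero_iff _ (RingHom.injective _)).mp h3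
  exact ⟨hx, le_of_forall_lam hresA x hx hsep⟩

include hres hR hrR hH hSep hTriv in
/-- **THE THEOREM (T-design)**: jointly injective trace functionals give NAMED generators. -/
theorem exists_surjective_traces {g : ℕ} (τ : Fin g → GQ)
    (hτ : ∀ x : Sel (Smin ∪ T ∪ Q) (LocCond.ofLocal (LcFamT rbar p Smin T Pp)),
      (∀ j, trSel _ _ (τ j) x = 0) → x = 0)
    (c : Fin g → 𝒪)
    (hc : ∀ j, residue 𝒪 (c j) =
      (rbar (τ j) : Matrix (Fin 2) (Fin 2) (ResidueField 𝒪)).trace) :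
    ∃ γ : MvPowerSeries (Fin g) A →ₐ[A] R, Function.Surjective γ ∧
      ∀ j, γ (MvPowerSeries.X j) = (rR (τ j)).trace - algebraMap 𝒪 R (c j) := by
  have hresA : Function.Surjective (residue R ∘ algebraMap A R) :=
    residue_surjective_top (𝒪 := 𝒪) (A := A) (R := R) hres
  obtain ⟨hx, hgen⟩ := le_of_traces hres rR hR hrR p Smin T Q Pp hH hSep hTriv τ hτ c hc
  obtain ⟨γ, hγ, hγx⟩ := Fermat.Agent.S56.Tan.PowerSeriesSurj.exists_surjective (𝒪 := A) (R := R)
    hresA (fun j => (rR (τ j)).trace - algebraMap 𝒪 R (c j)) hx hgen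
  exact ⟨γ, hγ, hγx⟩

include hres hR hrR hH hSep hTriv in
/-- **the base ring already surjects** when the trace generators come from the base: if
`tr rR τ_j - c_j ∈ 𝔪_A R` for all `j`, then `A → R` is onto. -/
theorem surjective_algebraMap_of_traces {g : ℕ} (τ : Fin g → GQ)
    (hτ : ∀ x : Sel (Smin ∪ T ∪ Q) (LocCond.ofLocal (LcFamT rbar p Smin T Pp)),
      (∀ j, trSel _ _ (τ j) x = 0) → x = 0)
    (c : Fin g → 𝒪)
    (hc : ∀ j, residue 𝒪 (c j) =
      (rbar (τ j) : Matrix (Fin 2) (Fin 2) (ResidueField 𝒪)).trace)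
    (hbase : ∀ j, (rR (τ j)).trace - algebraMap 𝒪 R (c j) ∈
      (maximalIdeal A).map (algebraMap A R)) :
    Function.Surjective (algebraMap A R) := by
  have hresA : Function.Surjective (residue R ∘ algebraMap A R) :=
    residue_surjective_top (𝒪 := 𝒪) (A := A) (R := R) hres
  obtain ⟨-, hgen⟩ := le_of_traces hres rR hR hrR p Smin T Q Pp hH hSep hTriv τ hτ c hc
  have hgen0 : maximalIdeal R ≤ (maximalIdeal A).map (algebraMap A R) ⊔
      Ideal.span (Set.range (Fin.elim0 : Fin 0 → R)) ⊔ maximalIdeal R ^ 2 := by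
    refine hgen.trans (sup_le_sup_right (sup_le le_sup_left ?_) _)
    rw [Ideal.span_le]
    rintro _ ⟨j, rfl⟩
    exact Ideal.mem_sup_left (hbase j)
  obtain ⟨γ, hγ, -⟩ := Fermat.Agent.S56.Tan.PowerSeriesSurj.exists_surjective (𝒪 := A) (R := R)
    hresA (Fin.elim0 : Fin 0 → R) (fun i => i.elim0) hgen0
  intro y
  obtain ⟨f, rfl⟩ := hγ y
  refine ⟨MvPowerSeries.constantCoeff f, ?_⟩
  have hf : f = algebraMap A (MvPowerSeries (Fin 0) A) (MvPowerSeries.constantCoeff f) := by
    ext d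
    have hd : d = 0 := Subsingleton.elim _ _
    subst hd
    rw [MvPowerSeries.algebraMap_apply, Algebra.algebraMap_self, RingHom.id_apply,
      MvPowerSeries.coeff_zero_C, MvPowerSeries.coeff_zero_eq_constantCoeff_apply]
  conv_rhs => rw [hf]
  rw [AlgHom.commutes]

end Main

end Fermat.Agent.S43.Num.RelTanT
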