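/-
PROJECT R (S43), block NUM (leader helper21): THE COUNT AT PRIMES WHERE `rbar|D_l` IS SCALAR.

After the block T1 has stripped every `l` with `l ≢ 1 mod p` or `rbar(Frob_l)` not scalar, the
remaining ("stuck") primes `l ∈ T` have `rbar s` scalar for all `s ∈ D_l`.  Then
`H⁰(D_l, ad⁰) = ad⁰` has `(card k) ^ 3` elements, and the relative count of `Num/RelCount`
reads `card Sel(Smin ∪ T ∪ Q, L^T) ≤ (card k) ^ (r - 3 #T)` (with `3 #T ≤ r`).

* `card_sl2`                 : `card (sl2 k) = (card k) ^ 3`;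
* `fixCard_of_scalar`        : `fixCard (Mrep rbar) l = (card k) ^ 3`;
* `card_sel_le_of_scalar`    : the arithmetic;
* `B1_eq_bot_of_scalar`      : `B1 (Dq l) (Mrep rbar) = ⊥` (local coboundaries vanish).
-/
import Fermat.Agent.S43.Num.RelCount

set_option autoImplicit false
set_option linter.style.haveILetI false

namespace Fermat.Agent.S43.Num.Scalar

open Matrix
open Fermat.Agent.CFT.LC Fermat.Agent.CFT.Bridge
open Fermat.Agent.S56.Coh Fermat.Agent.S56.Coh.CocDefs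
open Fermat.Agent.S56.Base.Main

variable {k : Type} [Field k]

/-- trace-zero `2 × 2` matrices are triples -/
def sl2Equiv : ↥(sl2 k) ≃ k × k × k where
  toFun X := (X.1 0 0, X.1 0 1, X.1 1 0)
  invFun t := ⟨!![t.1, t.2.1; t.2.2, -t.1], by
    rw [mem_sl2, Matrix.trace_fin_two]
    simp⟩
  left_inv X := by
    apply Subtype.ext
    have h := mem_sl2.1 X.2
    rw [Matrix.trace_fin_two] at h
    have h11 : X.1 1 1 = - X.1 0 0 := eq_neg_of_add_eq_zero_right h
    ext i j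
    fin_cases i <;> fin_cases j
    · rfl
    · rfl
    · rfl
    · change - X.1 0 0 = X.1 1 1
      rw [h11]
  right_inv t := by
    rcases t with ⟨a, b, c⟩
    rfl

/-- `card (sl2 k) = (card k) ^ 3` -/
theorem card_sl2 [Finite k] : Nat.card ↥(sl2 k) = Nat.card k ^ 3 := by
  rw [Nat.card_congr (sl2Equiv (k := k)), Nat.card_prod, Nat.card_prod]
  ring

variable (rbar : GQ →* GL (Fin 2) k)

/-- where `rbar s` is scalar, `s` fixes `ad⁰` pointwise -/
theorem ρ_eq_self_of_scalar {s : GQ} {e : k}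
    (hs : (rbar s : Matrix (Fin 2) (Fin 2) k) = e • (1 : Matrix (Fin 2) (Fin 2) k))
    (m : Mrep rbar) : (Mrep rbar).ρ s m = m := by
  apply Subtype.ext
  rw [Mrep_ρ_coe]
  have hc : (rbar s : Matrix (Fin 2) (Fin 2) k) * (m : sl2 k).1 =
      (m : sl2 k).1 * (rbar s : Matrix (Fin 2) (Fin 2) k) := by
    rw [hs, Matrix.smul_mul, Matrix.one_mul, Matrix.mul_smul, Matrix.mul_one]
  rw [hc, Matrix.mul_assoc, ← Units.val_mul, mul_inv_cancel, Units.val_one, Matrix.mul_one]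

/-- **`card H⁰(D_l, ad⁰) = (card k) ^ 3`** where `rbar|D_l` is scalar -/
theorem fixCard_of_scalar [Finite k] (l : ℕ) [Fact l.Prime]
    (h : ∀ s ∈ Dq l, ∃ e : k,
      (rbar s : Matrix (Fin 2) (Fin 2) k) = e • (1 : Matrix (Fin 2) (Fin 2) k)) :
    fixCard (Mrep rbar) l = Nat.card k ^ 3 := by
  rw [fixCard_of_prime, ← card_sl2 (k := k)]
  refine Nat.card_congr
    { toFun := fun m => (m.1 : ↥(sl2 k))
      invFun := fun m => ⟨m, fun g => by
        obtain ⟨e, he⟩ := h g.1 g.2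
        exact ρ_eq_self_of_scalar rbar he m⟩
      left_inv := fun _ => rfl
      right_inv := fun _ => rfl }

/-- local coboundaries vanish where `rbar|D_l` is scalar -/
theorem B1_eq_bot_of_scalar (l : ℕ) [Fact l.Prime]
    (h : ∀ s ∈ Dq l, ∃ e : k,
      (rbar s : Matrix (Fin 2) (Fin 2) k) = e • (1 : Matrix (Fin 2) (Fin 2) k)) :
    B1 (Dq l) (Mrep rbar) = ⊥ := by
  rw [eq_bot_iff]
  intro f hf
  obtain ⟨a, _, rfl⟩ := (mem_B₁_iff f).1 hf
  rw [Submodule.mem_bot]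
  funext s
  rw [groupCohomology.d₀₁_hom_apply]
  obtain ⟨e, he⟩ := h s.1 s.2
  have h1 : (Mrep rbar).ρ (s : GQ) a = a := ρ_eq_self_of_scalar rbar he a
  change (Mrep rbar).ρ (s : GQ) a - a = 0
  rw [h1, sub_self]

/-- **the arithmetic**: from `N * ∏_{l ∈ T} c l ≤ K ^ r` with `c l = K ^ 3` and `0 < N`, `1 < K`
to `3 #T ≤ r` and `N ≤ K ^ (r - 3 #T)`. -/
theorem card_sel_le_of_scalar {N K r : ℕ} (T : Finset ℕ) (c : ℕ → ℕ) (hN : 0 < N) (hK : 1 < K)
    (hc : ∀ l ∈ T, c l = K ^ 3) (h : N * ∏ l ∈ T, c l ≤ K ^ r) :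
    3 * T.card ≤ r ∧ N ≤ K ^ (r - 3 * T.card) := by
  have hprod : ∏ l ∈ T, c l = K ^ (3 * T.card) := by
    rw [Finset.prod_congr rfl hc, Finset.prod_const, ← pow_mul]
  rw [hprod] at h
  have h1 : K ^ (3 * T.card) ≤ K ^ r :=
    le_trans (Nat.le_mul_of_pos_left _ hN) h
  have h2 : 3 * T.card ≤ r := (Nat.pow_le_pow_iff_right hK).1 h1
  refine ⟨h2, ?_⟩
  have hpos : 0 < K ^ (3 * T.card) := Nat.pow_pos (by omega)
  refine Nat.le_of_mul_le_mul_right ?_ hpos
  rw [← pow_add, Nat.sub_add_cancel h2]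
  exact h

end Fermat.Agent.S43.Num.Scalar
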