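/-
PROJECT R (S43), block NUM (leader helper21): THE SEAM OF THE BLOCK (definitions only).

What NUM ASSUMES from the other blocks and what it EXPORTS, as literals.  Vocabulary: main's `S56`
(`Mrep`, `MatLift`, `cocOf`, `liftOf`, `Unpack.IsTWPrime`, `Unpack.Cond`, `Pfl`, `Punip`) and
`Num/RelCount.LcFamT`.

ASSUMES
* `ScalarAt rbar T` (from RB, after T1 has stripped every `l` with `l ≢ 1 mod p` or `rbar(Frob_l)`
  not scalar): `rbar s` is a scalar matrix for every `s ∈ D_l`, `l ∈ T`;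
* `CondHyp DQ p Smin T Q Pp` (from the producer of the global deformation condition `𝒟`, blocks
  L1 / L2; the same three clauses as `S56/Tan/Main`): the `k[ε]`-points of `𝒟` have cyclotomic
  determinant, the property `Pp` at `p`, are unipotent on inertia at `q ∈ Smin`, unramified outside
  `Smin ∪ T ∪ Q`; `𝒟` is invariant under equivalence and holds for the push-forwards of the
  universal deformation along surjections `DQ.R → k[ε]`;
* `TrivOnBase DQ rbar T A` (from LOC + the producer of `θ : A = R^loc_T → DQ.R`, UNFRAMED: `θ` is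
  given by the entries of a fixed matrix form of the universal deformation at a Frobenius lift and
  a tame generator of each `l ∈ T`): a tangent vector `φ : DQ.R → k[ε]` which is trivial on `A` has
  a cocycle which is locally trivial at every `l ∈ T`.

EXPORTS
* `RelGen p ρbar rbar S Smin T Pp` : ONE number `g`; for every depth `n` a Taylor–Wiles set `Q`
  of depth `n` with `#Q = g + 3 #T` such that EVERY deformation ring `DQ.R` of a condition `𝒟` with
  `CondHyp` is a quotient of `A⟦X₁,…,X_g⟧` as an `A`-algebra, for every complete local `A` with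
  `TrivOnBase`.  Numerology: `dim R_∞ = dim R^loc_T + g = (1 + 3 #T) + g = 1 + #Q = dim S_∞`.

The theorem `RelGen` for `Pp = Pfl p` (flat at `p`) and `Pp = Pso p` is `Num/Export.lean`.
-/
import Fermat.Agent.S43.Num.RelCount
import Fermat.Agent.S56.Tan.Main
import Fermat.Agent.S56.Main.Unpack

set_option autoImplicit false

noncomputable section

namespace Fermat.Agent.S43.Num.Seam

open IsLocalRing
open Fermat.Agent.CFT.Bridge
open Fermat.Agent.S56.Coh Fermat.Agent.S56.Coh.CocDefs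
open Fermat.Agent.S53.Dictionary hiding GQ
open Fermat.Agent.S53.TangentBound
open Fermat.Agent.S56.Tan.Universal Fermat.Agent.S56.Main.Unpack
open Fermat.Agent.S43.Num.RelCount

attribute [local instance] algDual

/-- **(ASSUMED, RB)** `rbar|D_l` is scalar at every `l ∈ T` -/
def ScalarAt {k : Type} [Field k] (rbar : GQ →* GL (Fin 2) k) (T : Finset ℕ) : Prop :=
  ∀ (l : ℕ) [Fact l.Prime], l ∈ T → ∀ s ∈ Dq l, ∃ e : k,
    (rbar s : Matrix (Fin 2) (Fin 2) k) = e • (1 : Matrix (Fin 2) (Fin 2) k)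

variable {𝒪 : Type} [CommRing 𝒪] [IsDomain 𝒪] [IsDiscreteValuationRing 𝒪]
  [IsAdicComplete (maximalIdeal 𝒪) 𝒪]
  {ρbar : ResidualGaloisRep (ResidueField 𝒪)}

/-- **(ASSUMED, L1/L2)** the three clauses of `S56/Tan/Main` on the global condition `𝒟`, with the
auxiliary set `T ∪ Q` -/
def CondHyp {𝒟 : Cond 𝒪} (DQ : GaloisRep.DeformationRingData 𝒪 ρbar 𝒟) (p : ℕ)
    (Smin T Q : Finset ℕ) (Pp : GaloisRepAdic (DualNumber (ResidueField 𝒪)) → Prop) : Prop :=
  (∀ ρA : GaloisRepAdic (DualNumber (ResidueField 𝒪)), 𝒟 ρA →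
    ρA.DetIsCyclotomic p ∧ Pp ρA ∧ (∀ q ∈ Smin, q.Prime → q ≠ p → Punip p q ρA) ∧
      ∀ q : ℕ, q.Prime → q ∉ Smin ∪ (T ∪ Q) → ρA.IsUnramifiedAt q) ∧
  (∀ ρ ρ' : GaloisRepAdic (DualNumber (ResidueField 𝒪)), ρ.IsEquiv ρ' → 𝒟 ρ → 𝒟 ρ') ∧
  ∀ φ : DQ.R →ₐ[𝒪] DualNumber (ResidueField 𝒪), Function.Surjective φ → 𝒟 (liftOf DQ φ)

/-- **(ASSUMED, LOC + the producer of `θ`)** a tangent vector of `DQ.R` which is trivial on the
base ring `A` has a cocycle which is locally trivial at every `l ∈ T` -/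
def TrivOnBase {𝒟 : Cond 𝒪} (DQ : GaloisRep.DeformationRingData 𝒪 ρbar 𝒟)
    (rbar : GQ →* GL (Fin 2) (ResidueField 𝒪)) (T : Finset ℕ)
    (A : Type) [CommRing A] [IsLocalRing A] [Algebra A DQ.R] : Prop :=
  ∀ φ : DQ.R →ₐ[𝒪] DualNumber (ResidueField 𝒪),
    (∀ a ∈ (maximalIdeal A).map (algebraMap A DQ.R), φ a = 0) →
    Function.Surjective φ → ∀ L : MatLift rbar, (liftOf DQ φ).IsEquiv (ofMat L.r L.cont) →
      ∀ (l : ℕ) [Fact l.Prime], l ∈ T → resFun (Dq l) (cocOf L) ∈ B1 (Dq l) (Mrep rbar)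

/-- **(EXPORT)** the relative generators: one number `g`, Taylor–Wiles sets `Q` of every depth
with `#Q = g + 3 #T`, and `DQ.R` a quotient of `A⟦X₁,…,X_g⟧` over `A`. -/
def RelGen (p : ℕ) (ρbar : ResidualGaloisRep (ResidueField 𝒪))
    (rbar : GQ →* GL (Fin 2) (ResidueField 𝒪)) (S Smin T : Finset ℕ)
    (Pp : GaloisRepAdic (DualNumber (ResidueField 𝒪)) → Prop) : Prop :=
  ∃ g : ℕ, ∀ n : ℕ, ∃ Q : Finset ℕ, Q.card = g + 3 * T.card ∧
    (∀ q ∈ Q, IsTWPrime p n ρbar S q) ∧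
    ∀ (𝒟 : Cond 𝒪) (DQ : GaloisRep.DeformationRingData 𝒪 ρbar 𝒟), CondHyp DQ p Smin T Q Pp →
      ∀ (A : Type) [CommRing A] [IsLocalRing A] [IsAdicComplete (maximalIdeal A) A] [Algebra 𝒪 A]
        [Algebra A DQ.R] [IsScalarTower 𝒪 A DQ.R] [IsLocalHom (algebraMap 𝒪 A)]
        [IsLocalHom (algebraMap A DQ.R)],
        TrivOnBase DQ rbar T A →
          ∃ γ : MvPowerSeries (Fin g) A →ₐ[A] DQ.R, Function.Surjective γ

end Fermat.Agent.S43.Num.Seam
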