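/-
PROJECT R (S43), block NUM (leader helper21), T-DESIGN: THE EXPORT `RelGenT`, PROVED.

`RelGenT p ρbar rbar S Smin T Pp` : ONE number `g`; for every depth `n` a Taylor–Wiles set `Q` of
depth `n` with `#Q = g + 3 #T` and Galois elements `τ₁ … τ_g` such that for EVERY complete local
`𝒪`-algebra `R` with a continuous matrix representation `rR` lifting `rbar` (`R = T_Q^?`, `rR` a
matrix form of `ρ_T`) satisfying (H1) `LiftHypM`, (H3) `TraceSepM`, and every complete local base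
`A → R` with (H2) `TrivOnBaseM`, and every choice of lifts `c_j ∈ 𝒪` of `tr rbar τ_j`:
`A⟦X₁,…,X_g⟧ → R`, `X_j ↦ tr rR τ_j - c_j` is onto.

`relGenT_fl`, `relGenT_so` : from the hypotheses of S56 on `ρbar` + `T ⊆ S` disjoint from `Smin`
+ `Seam.ScalarAt rbar T`.  Chain: `RelCountMain.relCount_fl` → `Scalar` → `RelTanT.exists_tau`
(`Num/Sep`: trace functionals separate) → `RelTanT.exists_surjective_traces`.
-/
import Fermat.Agent.S43.Num.Seam
import Fermat.Agent.S43.Num.RelCountMain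
import Fermat.Agent.S43.Num.Scalar
import Fermat.Agent.S43.Num.RelTanT

set_option autoImplicit false
set_option linter.style.haveILetI false
set_option linter.unusedSectionVars false

noncomputable section

namespace Fermat.Agent.S43.Num.ExportT

open IsLocalRing Polynomial
open Fermat.Agent.CFT.Bridge
open Fermat.Agent.S56.Coh Fermat.Agent.S56.Coh.CocDefs
open Fermat.Agent.S53.Dictionary hiding GQ
open Fermat.Agent.S56.Tan.Cocycle Fermat.Agent.S56.Base.Main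
open Fermat.Agent.S56.Main.Unpack
open Fermat.Agent.S43.Num.RelCount Fermat.Agent.S43.Num.Seam Fermat.Agent.S43.Num.RelTanT

variable {𝒪 : Type} [CommRing 𝒪] [IsDomain 𝒪] [IsDiscreteValuationRing 𝒪]
  [IsAdicComplete (maximalIdeal 𝒪) 𝒪]

/-- **(EXPORT, T-design)** the relative generators of every pair `(R, rR)`, named by traces. -/
def RelGenT (p : ℕ) [Fact p.Prime] (ρbar : ResidualGaloisRep (ResidueField 𝒪))
    (rbar : GQ →* GL (Fin 2) (ResidueField 𝒪)) (S Smin T : Finset ℕ)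
    (Pp : GaloisRepAdic (DualNumber (ResidueField 𝒪)) → Prop) : Prop :=
  ∃ g : ℕ, ∀ n : ℕ, ∃ Q : Finset ℕ, Q.card = g + 3 * T.card ∧
    (∀ q ∈ Q, IsTWPrime p n ρbar S q) ∧
    ∃ τ : Fin g → GQ,
      ∀ (R : Type) [CommRing R] [IsLocalRing R] [Algebra 𝒪 R] [IsLocalHom (algebraMap 𝒪 R)]
        [IsAdicComplete (maximalIdeal R) R]
        (hres : Function.Surjective (residue R ∘ algebraMap 𝒪 R))
        (rR : GQ →* Mat R) (hR : IsContMat R rR)
        (_ : mapMat (residue R) rR = mapMat (ResidueField.map (algebraMap 𝒪 R)) (rbarM rbar)),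
        LiftHypM hres rR hR p Smin T Q Pp → TraceSepM (𝒪 := 𝒪) rR →
        ∀ (A : Type) [CommRing A] [IsLocalRing A] [IsAdicComplete (maximalIdeal A) A]
          [Algebra 𝒪 A] [Algebra A R] [IsScalarTower 𝒪 A R] [IsLocalHom (algebraMap 𝒪 A)]
          [IsLocalHom (algebraMap A R)],
          TrivOnBaseM (𝒪 := 𝒪) rbar rR T A →
          ∀ c : Fin g → 𝒪,
            (∀ j, residue 𝒪 (c j) =
              (rbar (τ j) : Matrix (Fin 2) (Fin 2) (ResidueField 𝒪)).trace) →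
            ∃ γ : MvPowerSeries (Fin g) A →ₐ[A] R, Function.Surjective γ ∧
              ∀ j, γ (MvPowerSeries.X j) = (rR (τ j)).trace - algebraMap 𝒪 R (c j)

/-- Burnside in matrix form -/
theorem span_rM_eq_top {k : Type} [Field k] (ρbar : ResidualGaloisRep k)
    (habs : ρbar.IsAbsolutelyIrreducible) (b : Module.Basis (Fin 2) k ρbar.V)
    (rbar : GQ →* GL (Fin 2) k)
    (hb : ∀ g, (rbar g : Matrix (Fin 2) (Fin 2) k) = LinearMap.toMatrix b b (ρbar.ρ g)) :
    Submodule.span k (Set.range (Sep.rM rbar)) = ⊤ := by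
  have h1 := Fermat.Agent.S53.Centralizer.span_range_eq_top_of_isAbsolutelyIrreducible ρbar habs
  have h2 : Set.range (Sep.rM rbar) = (LinearMap.toMatrix b b) '' (Set.range ρbar.ρ) := by
    ext X
    constructor
    · rintro ⟨σ, rfl⟩
      exact ⟨ρbar.ρ σ, ⟨σ, rfl⟩, (hb σ).symm⟩
    · rintro ⟨_, ⟨σ, rfl⟩, rfl⟩
      exact ⟨σ, hb σ⟩
  have h3 : Submodule.map (LinearMap.toMatrix b b).toLinearMap
      (Submodule.span k (Set.range ρbar.ρ)) =
      Submodule.span k ((LinearMap.toMatrix b b).toLinearMap '' Set.range ρbar.ρ) :=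
    Submodule.map_span _ _
  rw [h1, Submodule.map_top,
    LinearMap.range_eq_top.mpr (LinearMap.toMatrix b b).surjective] at h3
  rw [h2]
  exact h3.symm

variable [Finite (ResidueField 𝒪)]

/-- **from the closed relative count to the named relative generators**, generic in the predicate
at `p` -/
theorem relGenT_of_relCount (p : ℕ) [Fact p.Prime] (ρbar : ResidualGaloisRep (ResidueField 𝒪))
    (rbar : GQ →* GL (Fin 2) (ResidueField 𝒪))
    (h2 : (2 : ResidueField 𝒪) ≠ 0)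
    (hspan : Submodule.span (ResidueField 𝒪) (Set.range (Sep.rM rbar)) = ⊤)
    (S Smin T : Finset ℕ) (hTS : T ⊆ S) (hS : ∀ q ∈ S, q.Prime)
    (hscal : ScalarAt rbar T)
    (Pp : GaloisRepAdic (DualNumber (ResidueField 𝒪)) → Prop)
    (hcount : Fermat.Agent.S56.Count.Halves.FinExport rbar ∧
      ∃ r : ℕ, ∀ n : ℕ, ∃ Q : Finset ℕ, Q.card = r ∧
        (∀ q ∈ Q, IsTWPrime p n ρbar S q) ∧
        Nat.card (Sel (Smin ∪ T ∪ Q) (LocCond.ofLocal (LcFamT rbar p Smin T Pp))) *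
            ∏ l ∈ T, fixCard (Mrep rbar) l ≤ Nat.card (ResidueField 𝒪) ^ r) :
    RelGenT p ρbar rbar S Smin T Pp := by
  obtain ⟨hFin, r, hr⟩ := hcount
  have hK : 1 < Nat.card (ResidueField 𝒪) := Finite.one_lt_card
  have hfix : ∀ l ∈ T, fixCard (Mrep rbar) l = Nat.card (ResidueField 𝒪) ^ 3 := by
    intro l hl
    haveI : Fact l.Prime := ⟨hS l (hTS hl)⟩
    exact Fermat.Agent.S43.Num.Scalar.fixCard_of_scalar rbar l (hscal l hl)
  refine ⟨r - 3 * T.card, fun n => ?_⟩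
  obtain ⟨Q, hQc, hQa, hQle⟩ := hr n
  haveI := hFin.1 (Smin ∪ T ∪ Q) (LocCond.ofLocal (LcFamT rbar p Smin T Pp))
  obtain ⟨h3, hN⟩ := Fermat.Agent.S43.Num.Scalar.card_sel_le_of_scalar T (fixCard (Mrep rbar))
    (Nat.card_pos (α := Sel (Smin ∪ T ∪ Q) (LocCond.ofLocal (LcFamT rbar p Smin T Pp)))) hK hfix
    hQle
  obtain ⟨τ, hτ⟩ := exists_tau h2 hspan (Smin ∪ T ∪ Q)
    (LocCond.ofLocal (LcFamT rbar p Smin T Pp)) hN
  refine ⟨Q, by omega, hQa, τ, fun R _ _ _ _ _ hres rR hR hrR hH hSep A _ _ _ _ _ _ _ _ hTriv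
    c hc => ?_⟩
  exact exists_surjective_traces hres rR hR hrR p Smin T Q Pp hH hSep hTriv τ hτ c hc

variable (p : ℕ) [Fact p.Prime] [CharP (ResidueField 𝒪) p]

include p in
theorem two_ne_zero_of_ne (hp2 : p ≠ 2) : (2 : ResidueField 𝒪) ≠ 0 := by
  intro h
  have h1 : ((2 : ℕ) : ResidueField 𝒪) = 0 := by exact_mod_cast h
  rw [CharP.cast_eq_zero_iff (ResidueField 𝒪) p] at h1
  have := (Nat.prime_dvd_prime_iff_eq (Fact.out : p.Prime) Nat.prime_two).mp h1
  exact hp2 this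

/-- **THE EXPORT OF NUM (T-design), flat at `p`.** -/
theorem relGenT_fl (hp2 : p ≠ 2) (ρbar : ResidualGaloisRep (ResidueField 𝒪))
    (habs : ρbar.IsAbsolutelyIrreducible)
    (hdet : (GaloisRepAdic.ofResidualGaloisRep ρbar).DetIsCyclotomic p)
    (hsplit : ∀ σ : GQ, ∃ α β : ResidueField 𝒪,
      LinearMap.charpoly (ρbar.ρ σ) = (X - C α) * (X - C β))
    (hTW : ∀ (K : Type) [Field K] [Algebra (ResidueField 𝒪) K] (G : Subgroup GQ), G.index = 2 →
      ∀ V : Submodule K (ρbar.baseChange K).V,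
        (∀ σ ∈ G, ∀ x ∈ V, (ρbar.baseChange K).ρ σ x ∈ V) → V = ⊥ ∨ V = ⊤)
    (S Smin T : Finset ℕ) (hpSmin : p ∈ Smin) (hSmin : Smin ⊆ S) (hTS : T ⊆ S)
    (hS : ∀ q ∈ S, q.Prime) (hST : Disjoint Smin T)
    (hmin : ∀ q : ℕ, q.Prime → q ≠ p → (q ∈ Smin ↔ ¬ ρbar.IsUnramifiedAt q))
    (b : Module.Basis (Fin 2) (ResidueField 𝒪) ρbar.V)
    (rbar : GQ →* GL (Fin 2) (ResidueField 𝒪))
    (hb : ∀ g, (rbar g : Matrix (Fin 2) (Fin 2) (ResidueField 𝒪)) =
      LinearMap.toMatrix b b (ρbar.ρ g))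
    (hscal : ScalarAt rbar T) :
    RelGenT p ρbar rbar S Smin T (Pfl p) :=
  relGenT_of_relCount p ρbar rbar (two_ne_zero_of_ne p hp2) (span_rM_eq_top ρbar habs b rbar hb)
    S Smin T hTS hS hscal (Pfl p)
    (Fermat.Agent.S43.Num.RelCountMain.relCount_fl p hp2 ρbar habs hdet hsplit hTW S Smin T hpSmin
      hSmin hTS hS hST hmin b rbar hb)

/-- **THE EXPORT OF NUM (T-design), strictly ordinary at `p`.** -/
theorem relGenT_so (hp2 : p ≠ 2) (ρbar : ResidualGaloisRep (ResidueField 𝒪))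
    (habs : ρbar.IsAbsolutelyIrreducible)
    (hdet : (GaloisRepAdic.ofResidualGaloisRep ρbar).DetIsCyclotomic p)
    (hsplit : ∀ σ : GQ, ∃ α β : ResidueField 𝒪,
      LinearMap.charpoly (ρbar.ρ σ) = (X - C α) * (X - C β))
    (hTW : ∀ (K : Type) [Field K] [Algebra (ResidueField 𝒪) K] (G : Subgroup GQ), G.index = 2 →
      ∀ V : Submodule K (ρbar.baseChange K).V,
        (∀ σ ∈ G, ∀ x ∈ V, (ρbar.baseChange K).ρ σ x ∈ V) → V = ⊥ ∨ V = ⊤)
    (S Smin T : Finset ℕ) (hpSmin : p ∈ Smin) (hSmin : Smin ⊆ S) (hTS : T ⊆ S)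
    (hS : ∀ q ∈ S, q.Prime) (hST : Disjoint Smin T)
    (hmin : ∀ q : ℕ, q.Prime → q ≠ p → (q ∈ Smin ↔ ¬ ρbar.IsUnramifiedAt q))
    (b : Module.Basis (Fin 2) (ResidueField 𝒪) ρbar.V)
    (rbar : GQ →* GL (Fin 2) (ResidueField 𝒪))
    (hb : ∀ g, (rbar g : Matrix (Fin 2) (Fin 2) (ResidueField 𝒪)) =
      LinearMap.toMatrix b b (ρbar.ρ g))
    (hscal : ScalarAt rbar T) :
    RelGenT p ρbar rbar S Smin T (Pso p) :=
  relGenT_of_relCount p ρbar rbar (two_ne_zero_of_ne p hp2) (span_rM_eq_top ρbar habs b rbar hb)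
    S Smin T hTS hS hscal (Pso p)
    (Fermat.Agent.S43.Num.RelCountMain.relCount_so p hp2 ρbar habs hdet hsplit hTW S Smin T hpSmin
      hSmin hTS hS hST hmin b rbar hb)

end Fermat.Agent.S43.Num.ExportT
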