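/-
PROJECT R (S43), brick N3, SELMER HALF (helper21, claim #6062): THE RELATIVE WILES–GREENBERG COUNT,
CLOSED FORM.  All inputs of `S43/Num/RelCount.exists_relCount` are discharged from main's `S56`
(never edited):

* the local pairing `S56/Base/Pairing/Export.localPairing`,
* the D-layer inputs `S56/Base/Final.dIn` at `Smin ∪ T` and at every larger set (dictionary,
  finiteness, Euler characteristic of `ad⁰ρ̄(1)`), the Euler characteristic input
  `S56/Base/MainEC.ecInput_of_dict`, finiteness `S56/Base/FinSel`, `S56/Base/DictLocFin`,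
* the group theory of Taylor–Wiles primes `S56/Grp.twSet_nonempty`,
* the unipotent local bounds (a4) (inside `RelCount.card_sel_LcFamT_mul_le`).

What remains is the local bound at `p` (`hlocp`), which main proves for `Pfl p`
(`S56/Flat/Main.card_LcOf_fl_le`) and for `Pso p` (`S56/Ord/Main.card_LcOf_so_le`):

* `relCount_of_locp` : generic in the predicate `Pp` at `p`;
* `relCount_fl`, `relCount_so` : the two instances, NO open hypothesis beyond those of S56 itself.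

Output (for `S₀ = Smin ∪ T`, `T ⊆ S` a finite set of primes disjoint from `Smin`):

  `FinExport rbar ∧ ∃ r, ∀ n, ∃ Q, #Q = r ∧ (∀ q ∈ Q, IsTWPrime p n ρbar S q) ∧
      card Sel(S₀ ∪ Q, L^T) * ∏ l ∈ T, card H⁰(D_l, ad⁰ρ̄) ≤ (card k) ^ r`.
-/
import Fermat.Agent.S43.Num.RelCount
import Fermat.Agent.S56.Base.Final
import Fermat.Agent.S56.Grp.Residue.Residue
import Fermat.Agent.S56.Flat.Main.Export

set_option autoImplicit false
set_option linter.style.haveILetI false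

namespace Fermat.Agent.S43.Num.RelCountMain

open CategoryTheory ExtCitation Polynomial
open Fermat.Agent.CFT.LC Fermat.Agent.CFT.Bridge Fermat.Agent.CFT.D Fermat.Agent.CFT.D.Reduce
open Fermat.Agent.S56.Coh Fermat.Agent.S56.Coh.CocDefs
open Fermat.Agent.S56.Count.Main Fermat.Agent.S56.Count.Halves
open Fermat.Agent.S56.Base.Count Fermat.Agent.S56.Base.Main Fermat.Agent.S56.Base.ECMain
open Fermat.Agent.S56.Base.MainEC Fermat.Agent.S56.Base.GlobalIn
open Fermat.Agent.S56.Base.Export Fermat.Agent.S56.Base.Final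
open Fermat.Agent.S43.Num.RelCount

variable {k : Type} [Field k] [Finite k] (p : ℕ) [Fact p.Prime]

/-- **THE RELATIVE COUNT, closed form, generic in the local predicate at `p`.** -/
theorem relCount_of_locp [Algebra (ZMod p) k] (hp2 : p ≠ 2) (ρbar : ResidualGaloisRep k)
    (habs : ρbar.IsAbsolutelyIrreducible)
    (hdet : (GaloisRepAdic.ofResidualGaloisRep ρbar).DetIsCyclotomic p)
    (hsplit : ∀ σ : GQ, ∃ α β : k, LinearMap.charpoly (ρbar.ρ σ) = (X - C α) * (X - C β))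
    (hTW : ∀ (K : Type) [Field K] [Algebra k K] (G : Subgroup GQ), G.index = 2 →
      ∀ V : Submodule K (ρbar.baseChange K).V,
        (∀ σ ∈ G, ∀ x ∈ V, (ρbar.baseChange K).ρ σ x ∈ V) → V = ⊥ ∨ V = ⊤)
    (S Smin T : Finset ℕ) (hpSmin : p ∈ Smin) (hSmin : Smin ⊆ S) (hTS : T ⊆ S)
    (hS : ∀ q ∈ S, q.Prime) (hST : Disjoint Smin T)
    (hmin : ∀ q : ℕ, q.Prime → q ≠ p → (q ∈ Smin ↔ ¬ ρbar.IsUnramifiedAt q))
    (b : Module.Basis (Fin 2) k ρbar.V) (rbar : GQ →* GL (Fin 2) k)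
    (hb : ∀ g, (rbar g : Matrix (Fin 2) (Fin 2) k) = LinearMap.toMatrix b b (ρbar.ρ g))
    (Pp : GaloisRepAdic (DualNumber k) → Prop)
    (hlocp : Finite (LocQ p (Mrep rbar) (LcOf rbar Pp p)) ∧
      Nat.card (LocQ p (Mrep rbar) (LcOf rbar Pp p)) ≤
        Nat.card k * Nat.card (Fix p (Mrep rbar))) :
    FinExport rbar ∧
    ∃ r : ℕ, ∀ n : ℕ, ∃ Q : Finset ℕ, Q.card = r ∧
      (∀ q ∈ Q, Fermat.Agent.S56.Main.Unpack.IsTWPrime p n ρbar S q) ∧
      Nat.card (Sel (Smin ∪ T ∪ Q) (LocCond.ofLocal (LcFamT rbar p Smin T Pp))) *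
          ∏ l ∈ T, fixCard (Mrep rbar) l ≤ Nat.card k ^ r := by
  classical
  haveI : CharP k p := charP_of_injective_algebraMap (algebraMap (ZMod p) k).injective p
  have h2 : (2 : k) ≠ 0 := Fermat.Agent.S56.Count.Concrete.two_ne_zero_of_charP p hp2
  have hSminP : ∀ q ∈ Smin, q.Prime := fun q hq => hS q (hSmin hq)
  have hTP : ∀ q ∈ T, q.Prime := fun q hq => hS q (hTS hq)
  have hS0P : ∀ q ∈ Smin ∪ T, q.Prime := fun q hq => by
    rcases Finset.mem_union.1 hq with h | h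
    · exact hSminP q h
    · exact hTP q h
  have hdetc := detCyclo_of_hb ρbar b rbar hb p hdet
  have hopen := exists_levelAll_le_ker ρbar b rbar hb
  have hunr := Fermat.Agent.S56.TW.OfResidual.rbar_unr_of_hmin ρbar b rbar hb hpSmin hmin
  have hD : ∀ S' : Finset Nat.Primes, (∀ q : Nat.Primes, (q : ℕ) ∈ Smin → q ∈ S') →
      DIn p rbar S' := fun S' hS' =>
    dIn p hp2 rbar hdetc hopen S' (hS' (pPrime p) hpSmin)
      (fun q _ hq s hs => hunr q (fun h => hq (hS' ⟨q, Fact.out⟩ h)) s hs)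
  have hFin : FinExport rbar :=
    finExport_of_DIn p rbar Smin hSminP hD Fermat.Agent.S56.Base.FinSel.finite_sel_of_finite_full
  haveI : Finite (Mrep rbar) := inferInstanceAs (Finite ↥(sl2 k))
  haveI : Finite (MrepTw rbar) := inferInstanceAs (Finite ↥(sl2 k))
  have hp0 : ((p : ℕ) : k) = 0 := CharP.cast_eq_zero k p
  obtain ⟨U, hU, hUk⟩ := hopen
  have hsm : ∃ U ∈ levelsAll.sets, ∀ s ∈ U, ∀ m : Mrep rbar, (Mrep rbar).ρ s m = m :=
    ⟨U, hU, fun s hs =>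
      (Fermat.Agent.S56.TW.TWPrime.unr_of_rbar_eq_one rbar (MonoidHom.mem_ker.1 (hUk hs))).1⟩
  have hsm' : ∃ U ∈ levelsAll.sets, ∀ s ∈ U, ∀ m : MrepTw rbar, (MrepTw rbar).ρ s m = m :=
    ⟨U, hU, fun s hs =>
      (Fermat.Agent.S56.TW.TWPrime.unr_of_rbar_eq_one rbar (MonoidHom.mem_ker.1 (hUk hs))).2⟩
  -- the base inequality with the constant at `Smin ∪ T`
  obtain ⟨hrbar, e0⟩ := exists_factors_of_hb ρbar b rbar hb
  have hS0 : ∀ q : Nat.Primes, q ∈ primesOf (Smin ∪ T) ↔ (q : ℕ) ∈ Smin ∪ T :=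
    mem_primesOf (Smin ∪ T)
  have hpS' : pPrime p ∈ primesOf (Smin ∪ T) := (hS0 _).2 (Finset.mem_union_left T hpSmin)
  obtain ⟨-, ⟨eTw⟩, ⟨eStr⟩, -, hf1, hf2, hchi, hlev, hDd⟩ :=
    hD (primesOf (Smin ∪ T)) (fun q hq => (hS0 q).2 (Finset.mem_union_left T hq))
      (Smin ∪ T) hS0P hS0
  have hEC := ecInput_of_dict h2 hpS' (globalInputs p (primesOf (Smin ∪ T)) hp2 hpS') hdetc hlev
    (fun X hX => Fermat.Agent.S56.Base.SchurAd.eq_zero_of_forall_ρ_eq h2 ρbar habs b rbar hb X hX)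
    hchi
    (hf1 := hf1) (hf2 := hf2) (Smin ∪ T) hS0P hS0 (Nat.card_congr eTw) (Nat.card_congr eStr) hDd
  have hbase := card_sel_LcFamT_mul_le p hp2 ρbar b rbar hb hrbar e0 Smin T hSminP hTP hpSmin hST
    hmin Pp (Fermat.Agent.S56.Base.Pairing.Export.localPairing p hp2 rbar hdetc ⟨U, hU, hUk⟩)
    hlocp
    (hFin.1 _ _) (hFin.2 _ _)
    (fun q _ _ => Fermat.Agent.S56.Base.DictLocFin.finite_H1loc
      (Fermat.Agent.S56.Base.TwistDict.phiK k p (ZpModel.phi p)) (Mrep rbar) q hsm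
      (fun x => by rw [hp0, zero_smul]))
    (fun q _ _ => Fermat.Agent.S56.Base.DictLocFin.finite_H1loc
      (Fermat.Agent.S56.Base.TwistDict.phiK k p (ZpModel.phi p)) (MrepTw rbar) q hsm'
      (fun x => by rw [hp0, zero_smul]))
    hEC
  exact ⟨hFin, exists_relCount rbar p hp2 ρbar habs hdet hsplit hTW S Smin T hpSmin hSmin hTS hS
    hmin b hb (fun n G _ _ π χ h c hc hnc => Fermat.Agent.S56.Grp.twSet_nonempty hp2 π χ h c hc hnc)
    Pp (Fermat.Agent.S56.Base.Pairing.Export.localPairing p hp2 rbar hdetc ⟨U, hU, hUk⟩) _ hbase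
    hFin.1 hFin.2⟩

/-- **THE RELATIVE COUNT, flat at `p`**: no open hypothesis beyond those of S56. -/
theorem relCount_fl [CharP k p] (hp2 : p ≠ 2) (ρbar : ResidualGaloisRep k)
    (habs : ρbar.IsAbsolutelyIrreducible)
    (hdet : (GaloisRepAdic.ofResidualGaloisRep ρbar).DetIsCyclotomic p)
    (hsplit : ∀ σ : GQ, ∃ α β : k, LinearMap.charpoly (ρbar.ρ σ) = (X - C α) * (X - C β))
    (hTW : ∀ (K : Type) [Field K] [Algebra k K] (G : Subgroup GQ), G.index = 2 →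
      ∀ V : Submodule K (ρbar.baseChange K).V,
        (∀ σ ∈ G, ∀ x ∈ V, (ρbar.baseChange K).ρ σ x ∈ V) → V = ⊥ ∨ V = ⊤)
    (S Smin T : Finset ℕ) (hpSmin : p ∈ Smin) (hSmin : Smin ⊆ S) (hTS : T ⊆ S)
    (hS : ∀ q ∈ S, q.Prime) (hST : Disjoint Smin T)
    (hmin : ∀ q : ℕ, q.Prime → q ≠ p → (q ∈ Smin ↔ ¬ ρbar.IsUnramifiedAt q))
    (b : Module.Basis (Fin 2) k ρbar.V) (rbar : GQ →* GL (Fin 2) k)
    (hb : ∀ g, (rbar g : Matrix (Fin 2) (Fin 2) k) = LinearMap.toMatrix b b (ρbar.ρ g)) :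
    FinExport rbar ∧
    ∃ r : ℕ, ∀ n : ℕ, ∃ Q : Finset ℕ, Q.card = r ∧
      (∀ q ∈ Q, Fermat.Agent.S56.Main.Unpack.IsTWPrime p n ρbar S q) ∧
      Nat.card (Sel (Smin ∪ T ∪ Q) (LocCond.ofLocal (LcFamT rbar p Smin T (Pfl p)))) *
          ∏ l ∈ T, fixCard (Mrep rbar) l ≤ Nat.card k ^ r := by
  letI : Algebra (ZMod p) k := ZMod.algebra k p
  exact relCount_of_locp p hp2 ρbar habs hdet hsplit hTW S Smin T hpSmin hSmin hTS hS hST hmin b
    rbar hb (Pfl p) (Fermat.Agent.S56.Flat.Main.card_LcOf_fl_le hp2 ρbar hdet hsplit b rbar hb)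

/-- **THE RELATIVE COUNT, strictly ordinary at `p`**: no open hypothesis beyond those of S56. -/
theorem relCount_so [CharP k p] (hp2 : p ≠ 2) (ρbar : ResidualGaloisRep k)
    (habs : ρbar.IsAbsolutelyIrreducible)
    (hdet : (GaloisRepAdic.ofResidualGaloisRep ρbar).DetIsCyclotomic p)
    (hsplit : ∀ σ : GQ, ∃ α β : k, LinearMap.charpoly (ρbar.ρ σ) = (X - C α) * (X - C β))
    (hTW : ∀ (K : Type) [Field K] [Algebra k K] (G : Subgroup GQ), G.index = 2 →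
      ∀ V : Submodule K (ρbar.baseChange K).V,
        (∀ σ ∈ G, ∀ x ∈ V, (ρbar.baseChange K).ρ σ x ∈ V) → V = ⊥ ∨ V = ⊤)
    (S Smin T : Finset ℕ) (hpSmin : p ∈ Smin) (hSmin : Smin ⊆ S) (hTS : T ⊆ S)
    (hS : ∀ q ∈ S, q.Prime) (hST : Disjoint Smin T)
    (hmin : ∀ q : ℕ, q.Prime → q ≠ p → (q ∈ Smin ↔ ¬ ρbar.IsUnramifiedAt q))
    (b : Module.Basis (Fin 2) k ρbar.V) (rbar : GQ →* GL (Fin 2) k)
    (hb : ∀ g, (rbar g : Matrix (Fin 2) (Fin 2) k) = LinearMap.toMatrix b b (ρbar.ρ g)) :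
    FinExport rbar ∧
    ∃ r : ℕ, ∀ n : ℕ, ∃ Q : Finset ℕ, Q.card = r ∧
      (∀ q ∈ Q, Fermat.Agent.S56.Main.Unpack.IsTWPrime p n ρbar S q) ∧
      Nat.card (Sel (Smin ∪ T ∪ Q) (LocCond.ofLocal (LcFamT rbar p Smin T (Pso p)))) *
          ∏ l ∈ T, fixCard (Mrep rbar) l ≤ Nat.card k ^ r := by
  letI : Algebra (ZMod p) k := ZMod.algebra k p
  exact relCount_of_locp p hp2 ρbar habs hdet hsplit hTW S Smin T hpSmin hSmin hTS hS hST hmin b
    rbar hb (Pso p) (Fermat.Agent.S56.Ord.Main.card_LcOf_so_le hp2 rbar)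

end Fermat.Agent.S43.Num.RelCountMain
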